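/-
EC / Ord (helper77): the cyclotomic character is ramified at EVERY place over `p` (`p` odd).

`ecord_exists_inertia_sq` : for a valuation subring `A` of `ℚ̄` over an odd prime `p` there is
`σ` in the inertia group of `A` with `σ μ = μ²` for every `p`-th root of unity `μ`.

This is the proof of `TW.S.stmtCycloRam` (helper87, place `padicPlace p`) run at an arbitrary
place: `σ₂ ζ = ζ²` by irreducibility of the cyclotomic polynomial, `ζ ≡ 1` modulo the maximal ideal,
the integers of `ℚ(ζ)` are `ℤ[ζ]`, and the inertia lifting lemma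
`Common.exists_mem_inertiaSubgroupIn_of_congr`.
-/
import Mathlib
import Fermat.Agent.Common.InertiaLift

set_option autoImplicit false
set_option linter.style.haveILetI false
set_option linter.unusedSectionVars false
set_option linter.unusedVariables false

noncomputable section

namespace Fermat.Agent.EC

open Polynomial

/-- `ℚ̄ / ℚ` is normal (for the instance of `Algebra ℚ ℚ̄` found by unification). -/
theorem ecord_qbar_normal : Normal ℚ (AlgebraicClosure ℚ) := by
  have h1 : @Normal ℚ (AlgebraicClosure ℚ) _ _ (AlgebraicClosure.instAlgebra ℚ) := inferInstance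
  convert h1
  exact Subsingleton.elim _ _

/-- A `p`-th root of unity is `≡ 1` modulo the maximal ideal of a place over `p`. -/
theorem ecord_root_sub_one_mem_nonunits (p : ℕ) [hp : Fact p.Prime]
    (A : ValuationSubring (AlgebraicClosure ℚ)) (hA : A.LiesOverPrime p)
    {ζ : AlgebraicClosure ℚ} (hζ : ζ ^ p = 1) : ζ - 1 ∈ A.nonunits := by
  have hζA : ζ ∈ A := by
    rcases A.mem_or_inv_mem ζ with h | h
    · exact h
    · have hζ0 : ζ ≠ 0 := by
        rintro rfl
        rw [zero_pow hp.out.ne_zero] at hζ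
        exact zero_ne_one hζ
      have h1 : ζ = ζ⁻¹ ^ (p - 1) := by
        have : ζ * ζ ^ (p - 1) = 1 := by
          rw [← pow_succ', Nat.sub_add_cancel hp.out.one_le, hζ]
        rw [inv_pow]
        exact eq_inv_of_mul_eq_one_left this
      rw [h1]
      exact pow_mem h _
  have hp0 : IsLocalRing.residue A (p : A) = 0 := by
    rw [IsLocalRing.residue_eq_zero_iff]
    obtain ⟨hmem, hmax⟩ := (A.mem_nonunits_iff_exists_mem_maximalIdeal).mp hA
    have : (⟨(p : AlgebraicClosure ℚ), hmem⟩ : A) = (p : A) := Subtype.ext (by simp)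
    rwa [this] at hmax
  haveI : CharP (IsLocalRing.ResidueField A) p := by
    rw [CharP.charP_iff_prime_eq_zero hp.out]
    simpa using hp0
  set z : A := ⟨ζ, hζA⟩ with hz
  have hzp : z ^ p = 1 := Subtype.ext (by simpa [hz] using hζ)
  have h1 : (IsLocalRing.residue A z - 1) ^ p = 0 := by
    rw [sub_pow_char, one_pow, ← map_pow, hzp, map_one, sub_self]
  have h2 : IsLocalRing.residue A (z - 1) = 0 := by
    rw [map_sub, map_one]
    exact pow_eq_zero_iff (hp.out.ne_zero) |>.mp h1
  rw [IsLocalRing.residue_eq_zero_iff] at h2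
  rw [A.mem_nonunits_iff_exists_mem_maximalIdeal]
  exact ⟨sub_mem hζA (one_mem A), h2⟩

/-- The elements `x ∈ A` with `σ x ≡ x` form a subring. -/
def ecordCongRing (A : ValuationSubring (AlgebraicClosure ℚ))
    (σ : AlgebraicClosure ℚ ≃ₐ[ℚ] AlgebraicClosure ℚ) : Subring (AlgebraicClosure ℚ) where
  carrier := {x | x ∈ A ∧ σ x - x ∈ A.nonunits}
  mul_mem' := by
    rintro x y ⟨hx, hx'⟩ ⟨hy, hy'⟩
    refine ⟨mul_mem hx hy, ?_⟩
    have hσx : σ x ∈ A := by
      have : σ x = x + (σ x - x) := by ring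
      rw [this]
      exact add_mem hx (A.nonunits_le hx')
    have e : σ (x * y) - x * y = σ x * (σ y - y) + (σ x - x) * y := by
      rw [map_mul]; ring
    rw [e, ValuationSubring.mem_nonunits_iff] at *
    refine lt_of_le_of_lt (A.valuation.map_add _ _) (max_lt ?_ ?_)
    · rw [map_mul]
      exact mul_lt_one_of_nonneg_of_lt_one_right ((A.valuation_le_one_iff _).mpr hσx)
        zero_le hy'
    · rw [map_mul]
      exact mul_lt_one_of_nonneg_of_lt_one_left zero_le hx'
        ((A.valuation_le_one_iff _).mpr hy)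
  one_mem' := by
    refine ⟨one_mem A, ?_⟩
    rw [map_one, sub_self, ValuationSubring.mem_nonunits_iff, map_zero]
    exact zero_lt_one
  add_mem' := by
    rintro x y ⟨hx, hx'⟩ ⟨hy, hy'⟩
    refine ⟨add_mem hx hy, ?_⟩
    have e : σ (x + y) - (x + y) = (σ x - x) + (σ y - y) := by
      rw [map_add]; ring
    rw [e, ValuationSubring.mem_nonunits_iff] at *
    exact lt_of_le_of_lt (A.valuation.map_add _ _) (max_lt hx' hy')
  zero_mem' := by
    refine ⟨zero_mem A, ?_⟩
    rw [map_zero, sub_self, ValuationSubring.mem_nonunits_iff, map_zero]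
    exact zero_lt_one
  neg_mem' := by
    rintro x ⟨hx, hx'⟩
    refine ⟨neg_mem hx, ?_⟩
    have e : σ (-x) - (-x) = -(σ x - x) := by
      rw [map_neg]; ring
    rw [e, ValuationSubring.mem_nonunits_iff, Valuation.map_neg] at *
    exact hx'

theorem ecord_intCast_mem_congRing (A : ValuationSubring (AlgebraicClosure ℚ))
    (σ : AlgebraicClosure ℚ ≃ₐ[ℚ] AlgebraicClosure ℚ) (n : ℤ) :
    (n : AlgebraicClosure ℚ) ∈ ecordCongRing A σ := intCast_mem _ n

/-- **The cyclotomic character is ramified at every place over an odd prime `p`**: some element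
of the inertia group squares the `p`-th roots of unity. -/
theorem ecord_exists_inertia_sq (p : ℕ) [hpf : Fact p.Prime] (hp2 : p ≠ 2)
    (A : ValuationSubring (AlgebraicClosure ℚ)) (hA : A.LiesOverPrime p) :
    ∃ σ ∈ A.inertiaSubgroupIn ℚ, ∀ μ : AlgebraicClosure ℚ, μ ^ p = 1 → σ μ = μ ^ 2 := by
  have hp : p.Prime := Fact.out
  haveI : NeZero p := ⟨hp.ne_zero⟩
  haveI : NeZero (p : AlgebraicClosure ℚ) := ⟨Nat.cast_ne_zero.mpr hp.ne_zero⟩
  obtain ⟨ζ, hζ⟩ := HasEnoughRootsOfUnity.exists_primitiveRoot (AlgebraicClosure ℚ) p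
  have h2p : 2 < p := lt_of_le_of_ne hp.two_le (Ne.symm hp2)
  have hcop : Nat.Coprime 2 p := by
    rw [Nat.coprime_comm]
    exact (Nat.coprime_primes hp Nat.prime_two).mpr hp2
  have hζ2 : IsPrimitiveRoot (ζ ^ 2) p := hζ.pow_of_coprime 2 hcop
  have hmin : minpoly ℚ ζ = cyclotomic p ℚ := (cyclotomic_eq_minpoly_rat hζ hp.pos).symm
  have hroot : Polynomial.aeval (ζ ^ 2) (minpoly ℚ ζ) = 0 := by
    rw [hmin]
    have := hζ2.isRoot_cyclotomic hp.pos
    rw [← map_cyclotomic p (algebraMap ℚ (AlgebraicClosure ℚ))] at this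
    simpa [aeval_def, eval₂_eq_eval_map, IsRoot.def] using this
  haveI hnorm : Normal ℚ (AlgebraicClosure ℚ) := ecord_qbar_normal
  have halg : IsAlgebraic ℚ ζ := hnorm.isAlgebraic ζ
  obtain ⟨σ, hσζ⟩ := minpoly.exists_algEquiv_of_root' halg hroot
  -- `ζ` lies in the subring
  have h1 := ecord_root_sub_one_mem_nonunits p A hA hζ.pow_eq_one
  have hζA : ζ ∈ A := by
    have : ζ = 1 + (ζ - 1) := by ring
    rw [this]
    exact add_mem (one_mem _) (A.nonunits_le h1)
  have hζB : ζ ∈ ecordCongRing A σ := by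
    refine ⟨hζA, ?_⟩
    rw [hσζ]
    have e : ζ ^ 2 - ζ = ζ * (ζ - 1) := by ring
    rw [e, ValuationSubring.mem_nonunits_iff, map_mul]
    exact mul_lt_one_of_nonneg_of_lt_one_right
      ((A.valuation_le_one_iff _).mpr hζA) zero_le
      ((A.mem_nonunits_iff).mp h1)
  -- the cyclotomic field
  haveI : Algebra.IsIntegral ℚ (AlgebraicClosure ℚ) := ⟨fun x => (hnorm.isAlgebraic x).isIntegral⟩
  haveI hcyc : IsCyclotomicExtension {p} ℚ (IntermediateField.adjoin ℚ {ζ}) :=
    hζ.intermediateField_adjoin_isCyclotomicExtension ℚ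
  haveI : IsGalois ℚ (IntermediateField.adjoin ℚ {ζ}) :=
    IsCyclotomicExtension.isGalois {p} ℚ (IntermediateField.adjoin ℚ {ζ})
  have hcong : ∀ x ∈ IntermediateField.adjoin ℚ {ζ}, IsIntegral ℤ x →
      σ x - x ∈ A.nonunits := by
    intro x hx hint
    let ζF : IntermediateField.adjoin ℚ {ζ} := ⟨ζ, IntermediateField.mem_adjoin_simple_self ℚ ζ⟩
    have hζF : IsPrimitiveRoot ζF p :=
      IsPrimitiveRoot.of_map_of_injective
        (f := algebraMap (IntermediateField.adjoin ℚ {ζ}) (AlgebraicClosure ℚ))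
        (show IsPrimitiveRoot
          (algebraMap (IntermediateField.adjoin ℚ {ζ}) (AlgebraicClosure ℚ) ζF) p from hζ)
        (algebraMap (IntermediateField.adjoin ℚ {ζ}) (AlgebraicClosure ℚ)).injective
    have hic := IsCyclotomicExtension.Rat.isIntegralClosure_adjoin_singleton_of_prime hζF
    have hintF : IsIntegral ℤ (⟨x, hx⟩ : IntermediateField.adjoin ℚ {ζ}) :=
      (isIntegral_algebraMap_iff
        (algebraMap (IntermediateField.adjoin ℚ {ζ}) (AlgebraicClosure ℚ)).injective).mp hint
    obtain ⟨y, hy⟩ := hic.isIntegral_iff.mp hintF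
    have key : ∀ z ∈ Algebra.adjoin ℤ ({ζF} : Set (IntermediateField.adjoin ℚ {ζ})),
        ((z : IntermediateField.adjoin ℚ {ζ}) : AlgebraicClosure ℚ) ∈ ecordCongRing A σ := by
      intro z hz
      induction hz using Algebra.adjoin_induction with
      | mem z hz =>
        rw [Set.mem_singleton_iff] at hz
        subst hz
        exact hζB
      | algebraMap r =>
        have : ((algebraMap ℤ (IntermediateField.adjoin ℚ {ζ}) r :
            IntermediateField.adjoin ℚ {ζ}) : AlgebraicClosure ℚ) = (r : AlgebraicClosure ℚ) := by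
          simp
        rw [this]
        exact ecord_intCast_mem_congRing _ _ r
      | add a b _ _ ha hb =>
        have : ((a + b : IntermediateField.adjoin ℚ {ζ}) : AlgebraicClosure ℚ)
            = (a : AlgebraicClosure ℚ) + b := rfl
        rw [this]
        exact add_mem ha hb
      | mul a b _ _ ha hb =>
        have : ((a * b : IntermediateField.adjoin ℚ {ζ}) : AlgebraicClosure ℚ)
            = (a : AlgebraicClosure ℚ) * b := rfl
        rw [this]
        exact mul_mem ha hb
    have hxy : x = ((y : IntermediateField.adjoin ℚ {ζ}) : AlgebraicClosure ℚ) := by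
      have := congrArg (fun t : IntermediateField.adjoin ℚ {ζ} => (t : AlgebraicClosure ℚ)) hy
      exact this.symm
    rw [hxy]
    exact (key y y.2).2
  obtain ⟨σ', hσ'I, hσ'F⟩ := Fermat.Agent.Common.exists_mem_inertiaSubgroupIn_of_congr
    (IntermediateField.adjoin ℚ {ζ}) p hp A hA σ hcong
  refine ⟨σ', hσ'I, fun μ hμ => ?_⟩
  have h4 : σ' ζ = ζ ^ 2 := by
    rw [hσ'F ζ (IntermediateField.mem_adjoin_simple_self ℚ ζ), hσζ]
  obtain ⟨j, -, rfl⟩ := hζ.eq_pow_of_pow_eq_one hμ
  rw [map_pow, h4, ← pow_mul, ← pow_mul, mul_comm]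

end Fermat.Agent.EC

end
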