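/-
EC / Ord (helper77): the ordinary line of a Tate module, abstractly.

`S : TateSys M p 2` (a compatible system of bases of the `M[p^n]`, `V = ℤ_p²` with level maps
`S.lev n : V → M[p^n]`), `E₀` a subgroup of `M`.  `ecordLine S E₀` is the submodule of the `v ∈ V`
all of whose levels lie in `E₀`.

* `ecordLine_eq_span` : if some `p`-torsion point is not in `E₀` and the line is not `0`, then
  `ecordLine = span {b 0}` for a basis `b` of `V`;
* `ecordLine_stable`, `ecordLine_move` : transfer of "stable" and "moves into `E₀`" from points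
  to the Tate module;
* `ecordLine_sign` : an endomorphism `g` of `M` preserving `E₀` with `g P ∓ P ∈ E₀` for every
  point acts on the line by a scalar `x`, on the quotient by a scalar `z` with `z * z = 1`, and
  `det = x * z`.
-/
import Mathlib
import Fermat.Agent.EC.TateAbs

set_option autoImplicit false
set_option linter.unusedSectionVars false
set_option linter.unusedVariables false

namespace Fermat.Agent.EC

universe u

section Line

variable {M : Type u} [AddCommGroup M] {p : ℕ} [hp : Fact p.Prime] (S : TateSys M p 2)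
  (E₀ : AddSubgroup M)

/-- The submodule of the Tate module of the compatible systems in `E₀`. -/
def ecordLine : Submodule ℤ_[p] (Fin 2 → ℤ_[p]) where
  carrier := {v | ∀ n, S.lev n v ∈ E₀}
  zero_mem' := fun n => by rw [map_zero]; exact E₀.zero_mem
  add_mem' := fun {v w} hv hw n => by rw [map_add]; exact E₀.add_mem (hv n) (hw n)
  smul_mem' := fun c v hv n => by
    rw [S.lev_smul_val]; exact E₀.nsmul_mem (hv n) _

lemma mem_ecordLine (v : Fin 2 → ℤ_[p]) : v ∈ ecordLine S E₀ ↔ ∀ n, S.lev n v ∈ E₀ := Iff.rfl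

lemma ecord_lev_p_smul (n : ℕ) (v : Fin 2 → ℤ_[p]) :
    S.lev (n + 1) ((p : ℤ_[p]) • v) = S.lev n v := by
  have h := S.lev_smul (n + 1) (p : ℤ_[p]) v (p : ℤ)
    (by simpa using TateSys.isRep_intCast (ℓ := p) (n + 1) (p : ℤ))
  rw [h, natCast_zsmul, S.smul_lev_succ]

/-- The line is saturated. -/
lemma ecordLine_of_p_smul {v : Fin 2 → ℤ_[p]} (h : (p : ℤ_[p]) • v ∈ ecordLine S E₀) :
    v ∈ ecordLine S E₀ := by
  intro n
  have := h (n + 1)
  rwa [ecord_lev_p_smul] at this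

lemma ecordLine_of_p_pow_smul (k : ℕ) {v : Fin 2 → ℤ_[p]}
    (h : (p : ℤ_[p]) ^ k • v ∈ ecordLine S E₀) : v ∈ ecordLine S E₀ := by
  induction k with
  | zero => simpa using h
  | succ k ih =>
    apply ih
    apply ecordLine_of_p_smul S E₀
    rwa [smul_smul, ← pow_succ']

lemma ecordLine_of_smul {c : ℤ_[p]} (hc : c ≠ 0) {v : Fin 2 → ℤ_[p]}
    (h : c • v ∈ ecordLine S E₀) : v ∈ ecordLine S E₀ := by
  have hspec := PadicInt.unitCoeff_spec hc
  apply ecordLine_of_p_pow_smul S E₀ c.valuation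
  have e : (p : ℤ_[p]) ^ c.valuation • v
      = (((PadicInt.unitCoeff hc)⁻¹ : ℤ_[p]ˣ) : ℤ_[p]) • (c • v) := by
    rw [smul_smul]
    congr 1
    have h1 : (((PadicInt.unitCoeff hc)⁻¹ : ℤ_[p]ˣ) : ℤ_[p]) * c
        = (((PadicInt.unitCoeff hc)⁻¹ : ℤ_[p]ˣ) : ℤ_[p])
          * ((PadicInt.unitCoeff hc : ℤ_[p]) * (p : ℤ_[p]) ^ c.valuation) :=
      congrArg (fun t => (((PadicInt.unitCoeff hc)⁻¹ : ℤ_[p]ˣ) : ℤ_[p]) * t) hspec
    rw [h1, ← mul_assoc, Units.inv_mul, one_mul]
  rw [e]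
  exact Submodule.smul_mem _ _ h

end Line

section Basis

variable {p : ℕ} [hp : Fact p.Prime]

/-- A vector of `ℤ_p²` with a unit coordinate is the first vector of a basis. -/
lemma ecord_exists_basis (v : Fin 2 → ℤ_[p]) (hv : ∃ i, IsUnit (v i)) :
    ∃ b : Module.Basis (Fin 2) ℤ_[p] (Fin 2 → ℤ_[p]), b 0 = v := by
  obtain ⟨i, hi⟩ := hv
  obtain ⟨u, hu⟩ := hi
  have hcard : Fintype.card (Fin 2) = Module.finrank ℤ_[p] (Fin 2 → ℤ_[p]) := by simp
  fin_cases i
  · -- `v 0` is a unit: the basis `(v, e₁)`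
    let f : Fin 2 → (Fin 2 → ℤ_[p]) := ![v, Pi.single 1 1]
    have hspan : ⊤ ≤ Submodule.span ℤ_[p] (Set.range f) := by
      intro w _
      rw [Submodule.mem_span_range_iff_exists_fun]
      refine ⟨![(u⁻¹ : ℤ_[p]ˣ) * w 0, w 1 - (u⁻¹ : ℤ_[p]ˣ) * w 0 * v 1], ?_⟩
      have hu0 : v 0 = u := hu.symm
      ext j
      fin_cases j
      · simp only [f, Fin.sum_univ_two]
        simp
        rw [hu0, mul_right_comm, Units.inv_mul, one_mul]
      · simp [f, Fin.sum_univ_two]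
    refine ⟨basisOfTopLeSpanOfCardEqFinrank f hspan hcard, ?_⟩
    rw [coe_basisOfTopLeSpanOfCardEqFinrank]; rfl
  · -- `v 1` is a unit: the basis `(v, e₀)`
    let f : Fin 2 → (Fin 2 → ℤ_[p]) := ![v, Pi.single 0 1]
    have hspan : ⊤ ≤ Submodule.span ℤ_[p] (Set.range f) := by
      intro w _
      rw [Submodule.mem_span_range_iff_exists_fun]
      refine ⟨![(u⁻¹ : ℤ_[p]ˣ) * w 1, w 0 - (u⁻¹ : ℤ_[p]ˣ) * w 1 * v 0], ?_⟩
      have hu0 : v 1 = u := hu.symm
      ext j
      fin_cases j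
      · simp [f, Fin.sum_univ_two]
      · simp only [f, Fin.sum_univ_two]
        simp
        rw [hu0, mul_right_comm, Units.inv_mul, one_mul]
    refine ⟨basisOfTopLeSpanOfCardEqFinrank f hspan hcard, ?_⟩
    rw [coe_basisOfTopLeSpanOfCardEqFinrank]; rfl

lemma ecord_mem_span_p_pow_iff (n : ℕ) (x : ℤ_[p]) :
    x ∈ Ideal.span {(p : ℤ_[p]) ^ n} ↔ PadicInt.toZModPow n x = 0 := by
  rw [← PadicInt.ker_toZModPow, RingHom.mem_ker]

lemma ecord_eq_zero_of_forall_mem {x : ℤ_[p]} (h : ∀ n, x ∈ Ideal.span {(p : ℤ_[p]) ^ n}) :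
    x = 0 := by
  refine PadicInt.ext_of_toZModPow.1 (fun n => ?_)
  rw [map_zero]
  exact (ecord_mem_span_p_pow_iff n x).1 (h n)

lemma ecord_isUnit_of_notMem {x : ℤ_[p]} (h : x ∉ Ideal.span {(p : ℤ_[p])}) : IsUnit x := by
  rw [← PadicInt.maximalIdeal_eq_span_p] at h
  exact IsLocalRing.notMem_maximalIdeal.1 h

end Basis

section Span

variable {M : Type u} [AddCommGroup M] {p : ℕ} [hp : Fact p.Prime] (S : TateSys M p 2)
  (E₀ : AddSubgroup M)

/-- An element of the line with a coordinate outside `p^(k+1) ℤ_p` gives an element of the line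
with a unit coordinate. -/
lemma ecordLine_exists_unit (k : ℕ) : ∀ v ∈ ecordLine S E₀,
    (∃ i, v i ∉ Ideal.span {(p : ℤ_[p]) ^ (k + 1)}) →
    ∃ v' ∈ ecordLine S E₀, ∃ i, IsUnit (v' i) := by
  induction k with
  | zero =>
    rintro v hv ⟨i, hi⟩
    rw [zero_add, pow_one] at hi
    exact ⟨v, hv, i, ecord_isUnit_of_notMem hi⟩
  | succ k ih =>
    rintro v hv ⟨i, hi⟩
    by_cases hall : ∀ j, v j ∈ Ideal.span {(p : ℤ_[p])}
    · choose w hw using fun j => Ideal.mem_span_singleton'.1 (hall j)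
      have hvw : (p : ℤ_[p]) • w = v := by
        ext j
        rw [Pi.smul_apply, smul_eq_mul, mul_comm]
        exact hw j
      have hwL : w ∈ ecordLine S E₀ := ecordLine_of_p_smul S E₀ (by rw [hvw]; exact hv)
      refine ih w hwL ⟨i, fun hwi => hi ?_⟩
      rw [← hw i]
      obtain ⟨c, hc⟩ := Ideal.mem_span_singleton'.1 hwi
      rw [Ideal.mem_span_singleton']
      exact ⟨c, by rw [← hc]; ring⟩
    · rw [not_forall] at hall
      obtain ⟨j, hj⟩ := hall
      exact ⟨v, hv, j, ecord_isUnit_of_notMem hj⟩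

lemma ecord_basis_sum (b : Module.Basis (Fin 2) ℤ_[p] (Fin 2 → ℤ_[p])) (w : Fin 2 → ℤ_[p]) :
    w = b.repr w 0 • b 0 + b.repr w 1 • b 1 := by
  conv_lhs => rw [← b.sum_repr w, Fin.sum_univ_two]

/-- If the two basis vectors have level-one points in `E₀`, every `p`-torsion point is in
`E₀`. -/
lemma ecord_all_mem_of_basis (b : Module.Basis (Fin 2) ℤ_[p] (Fin 2 → ℤ_[p]))
    (h0 : S.lev 1 (b 0) ∈ E₀) (h1 : S.lev 1 (b 1) ∈ E₀) (P : M) (hP : p • P = 0) : P ∈ E₀ := by
  obtain ⟨v₁, hv₁⟩ := S.lev_surjective 1 P (by rwa [pow_one])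
  rw [← hv₁, ecord_basis_sum b v₁, map_add, S.lev_smul_val, S.lev_smul_val]
  exact E₀.add_mem (E₀.nsmul_mem h0 _) (E₀.nsmul_mem h1 _)

/-- **The line is spanned by the first vector of a basis** as soon as it is not `0` and some
`p`-torsion point is outside `E₀`. -/
theorem ecordLine_eq_span (hN : ∃ P : M, p • P = 0 ∧ P ∉ E₀) (hne : ecordLine S E₀ ≠ ⊥) :
    ∃ b : Module.Basis (Fin 2) ℤ_[p] (Fin 2 → ℤ_[p]),
      ecordLine S E₀ = Submodule.span ℤ_[p] {b 0} := by
  obtain ⟨v, hvL, hv0⟩ := Submodule.exists_mem_ne_zero_of_ne_bot hne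
  obtain ⟨i, hi⟩ : ∃ i, v i ≠ 0 := by
    by_contra h
    rw [not_exists] at h
    apply hv0
    ext j
    exact not_not.1 (h j)
  obtain ⟨k, hk⟩ : ∃ k, v i ∉ Ideal.span {(p : ℤ_[p]) ^ (k + 1)} := by
    by_contra h
    rw [not_exists] at h
    apply hi
    refine ecord_eq_zero_of_forall_mem (fun n => ?_)
    rcases n with _ | n
    · rw [pow_zero, Ideal.span_singleton_one]; trivial
    · exact not_not.1 (h n)
  obtain ⟨v', hv'L, hunit⟩ := ecordLine_exists_unit S E₀ k v hvL ⟨i, hk⟩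
  obtain ⟨b, hb⟩ := ecord_exists_basis v' hunit
  have hb0L : b 0 ∈ ecordLine S E₀ := by rw [hb]; exact hv'L
  refine ⟨b, le_antisymm ?_ ?_⟩
  · intro w hw
    have hsum := ecord_basis_sum b w
    by_cases hβ : b.repr w 1 = 0
    · rw [Submodule.mem_span_singleton]
      refine ⟨b.repr w 0, ?_⟩
      rw [hβ, zero_smul, add_zero] at hsum
      exact hsum.symm
    · exfalso
      have h1 : b.repr w 1 • b 1 ∈ ecordLine S E₀ := by
        have e : b.repr w 1 • b 1 = w - b.repr w 0 • b 0 := by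
          rw [eq_sub_iff_add_eq']
          exact hsum.symm
        rw [e]
        exact Submodule.sub_mem _ hw (Submodule.smul_mem _ _ hb0L)
      have hb1 : b 1 ∈ ecordLine S E₀ := ecordLine_of_smul S E₀ hβ h1
      obtain ⟨P, hP, hPE⟩ := hN
      exact hPE (ecord_all_mem_of_basis S E₀ b (hb0L 1) (hb1 1) P hP)
  · rw [Submodule.span_singleton_le_iff_mem]
    exact hb0L

lemma ecordLine_stable (g : AddMonoid.End M) (hg : ∀ P ∈ E₀, g P ∈ E₀) :
    ∀ v ∈ ecordLine S E₀, S.tateEnd g v ∈ ecordLine S E₀ := fun v hv n => by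
  rw [S.lev_tateEnd]; exact hg _ (hv n)

lemma ecordLine_move (g : AddMonoid.End M)
    (hg : ∀ (n : ℕ) (P : M), p ^ n • P = 0 → g P - P ∈ E₀) :
    ∀ v, S.tateEnd g v - v ∈ ecordLine S E₀ := fun v n => by
  rw [map_sub, S.lev_tateEnd]; exact hg n _ (S.pow_smul_lev n v)

/-- If `c • b 1` is in `E₀` at level `n`, then `p ^ n ∣ c`. -/
lemma ecordLine_coeff_mem (b : Module.Basis (Fin 2) ℤ_[p] (Fin 2 → ℤ_[p]))
    (hL : ecordLine S E₀ = Submodule.span ℤ_[p] {b 0})
    (hN : ∃ P : M, p • P = 0 ∧ P ∉ E₀) :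
    ∀ (n : ℕ) (c : ℤ_[p]), S.lev n (c • b 1) ∈ E₀ → c ∈ Ideal.span {(p : ℤ_[p]) ^ n} := by
  have hb0L : b 0 ∈ ecordLine S E₀ := by
    rw [hL]; exact Submodule.mem_span_singleton_self _
  intro n
  induction n with
  | zero =>
    intro c _
    rw [pow_zero, Ideal.span_singleton_one]; trivial
  | succ n ih =>
    intro c hc
    have hcp : c ∈ Ideal.span {(p : ℤ_[p])} := by
      by_contra hcon
      obtain ⟨u, hu⟩ := ecord_isUnit_of_notMem hcon
      have h1 : S.lev (n + 1) (b 1) ∈ E₀ := by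
        have e : b 1 = ((u⁻¹ : ℤ_[p]ˣ) : ℤ_[p]) • (c • b 1) := by
          rw [smul_smul, ← hu, Units.inv_mul, one_smul]
        rw [e, S.lev_smul_val]
        exact E₀.nsmul_mem hc _
      have h2 : S.lev 1 (b 1) ∈ E₀ := by
        have e := S.pow_smul_lev_add 1 n (b 1)
        rw [add_comm 1 n] at e
        rw [← e]
        exact E₀.nsmul_mem h1 _
      obtain ⟨P, hP, hPE⟩ := hN
      exact hPE (ecord_all_mem_of_basis S E₀ b (hb0L 1) h2 P hP)
    obtain ⟨c', hc'⟩ := Ideal.mem_span_singleton'.1 hcp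
    have e : c • b 1 = (p : ℤ_[p]) • (c' • b 1) := by
      rw [smul_smul, ← hc', mul_comm]
    rw [e, ecord_lev_p_smul] at hc
    obtain ⟨d, hd⟩ := Ideal.mem_span_singleton'.1 (ih c' hc)
    rw [Ideal.mem_span_singleton']
    exact ⟨d, by rw [← hc', ← hd]; ring⟩

/-- **Scalars of an endomorphism acting by `±1` modulo `E₀`.** -/
theorem ecordLine_sign (b : Module.Basis (Fin 2) ℤ_[p] (Fin 2 → ℤ_[p]))
    (hL : ecordLine S E₀ = Submodule.span ℤ_[p] {b 0})
    (hN : ∃ P : M, p • P = 0 ∧ P ∉ E₀) (g : AddMonoid.End M)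
    (hstab : ∀ P ∈ E₀, g P ∈ E₀) (hsign : ∀ P : M, g P - P ∈ E₀ ∨ g P + P ∈ E₀) :
    ∃ x z : ℤ_[p], (∀ w ∈ ecordLine S E₀, S.tateEnd g w = x • w) ∧
      (∀ v, S.tateEnd g v - z • v ∈ ecordLine S E₀) ∧ z * z = 1 ∧
      LinearMap.det (S.tateEnd g) = x * z := by
  have hb0L : b 0 ∈ ecordLine S E₀ := by
    rw [hL]; exact Submodule.mem_span_singleton_self _
  have hTb0 : S.tateEnd g (b 0) ∈ Submodule.span ℤ_[p] {b 0} := by
    rw [← hL]; exact ecordLine_stable S E₀ g hstab _ hb0L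
  obtain ⟨x, hx⟩ := Submodule.mem_span_singleton.1 hTb0
  set z : ℤ_[p] := b.repr (S.tateEnd g (b 1)) 1 with hz
  set α : ℤ_[p] := b.repr (S.tateEnd g (b 1)) 0 with hα
  have hT1 : S.tateEnd g (b 1) = α • b 0 + z • b 1 := ecord_basis_sum b _
  have hzv : ∀ v, S.tateEnd g v - z • v ∈ ecordLine S E₀ := by
    intro v
    rw [hL, Submodule.mem_span_singleton]
    refine ⟨b.repr v 0 * x + b.repr v 1 * α - z * b.repr v 0, ?_⟩
    conv_rhs => rw [ecord_basis_sum b v]
    rw [map_add, map_smul, map_smul, ← hx, hT1]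
    module
  refine ⟨x, z, ?_, hzv, ?_, ?_⟩
  · intro w hw
    rw [hL] at hw
    obtain ⟨c, rfl⟩ := Submodule.mem_span_singleton.1 hw
    rw [map_smul, ← hx, smul_comm]
  · -- `z * z = 1`
    have key : ∀ n, (z - 1) * (z + 1) ∈ Ideal.span {(p : ℤ_[p]) ^ n} := by
      intro n
      have hαL : S.lev n (α • b 0) ∈ E₀ := (Submodule.smul_mem _ α hb0L) n
      rcases hsign (S.lev n (b 1)) with h | h
      · have h1 : S.lev n ((z - 1) • b 1) ∈ E₀ := by
          have e : (z - 1) • b 1 = (S.tateEnd g (b 1) - b 1) - α • b 0 := by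
            rw [hT1]; module
          rw [e, map_sub, map_sub, S.lev_tateEnd]
          exact E₀.sub_mem h hαL
        exact Ideal.mul_mem_right _ _ (ecordLine_coeff_mem S E₀ b hL hN n _ h1)
      · have h1 : S.lev n ((z + 1) • b 1) ∈ E₀ := by
          have e : (z + 1) • b 1 = (S.tateEnd g (b 1) + b 1) - α • b 0 := by
            rw [hT1]; module
          rw [e, map_sub, map_add, S.lev_tateEnd]
          exact E₀.sub_mem h hαL
        exact Ideal.mul_mem_left _ _ (ecordLine_coeff_mem S E₀ b hL hN n _ h1)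
    have h0 := ecord_eq_zero_of_forall_mem key
    linear_combination h0
  · -- the determinant
    rw [← LinearMap.det_toMatrix b, Matrix.det_fin_two]
    simp only [LinearMap.toMatrix_apply]
    have e00 : b.repr (S.tateEnd g (b 0)) 0 = x := by
      rw [← hx, map_smul, Module.Basis.repr_self]; simp
    have e10 : b.repr (S.tateEnd g (b 0)) 1 = 0 := by
      rw [← hx, map_smul, Module.Basis.repr_self]; simp
    rw [e00, e10, mul_zero, sub_zero]

end Span

end Fermat.Agent.EC
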