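/-
EC / Ord (helper77): the subgroup `E⁰` of points with nonsingular reduction at a node, defined by
the clipped valuation `nu` of S05 (`nu = 1`), and the two consequences of the
quasi-parallelogram law `S05.qp` used for the ordinary line of the Tate module at a
multiplicative prime:

* `ecord_nu_add`   : `nu P = 1`, `nu Q = 1` ⇒ `nu (P + Q) = 1`   (`E⁰` is a subgroup, `ecordE0`);
* `ecord_nu_pm`    : `nu P = nu Q < 1` ⇒ `nu (P - Q) = 1` or `nu (P + Q) = 1`.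
-/
import Mathlib
import Fermat.Agent.S05.Tropical

set_option autoImplicit false
set_option linter.unusedSectionVars false

namespace Fermat.Agent.EC

open WeierstrassCurve WeierstrassCurve.Affine Fermat.Agent.S05

section Zero

variable {Γ₀ : Type*} [LinearOrderedCommGroupWithZero Γ₀]

/-- An even power of `ε` in the interval `[ε, 1]` is `1`. -/
lemma ecord_zpow_eq_one {ε a : Γ₀} (hε0 : 0 < ε) (hε : ε < 1) (ha : ε ≤ a) (ha1 : a ≤ 1)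
    (k : ℤ) (h : a = ε ^ (2 * k)) : a = 1 := by
  rcases lt_trichotomy k 0 with hk | hk | hk
  · exfalso
    have h1 : ε ^ (0 : ℤ) < ε ^ (2 * k) :=
      zpow_lt_zpow_right_of_lt_one₀ hε0 hε (show 2 * k < 0 by omega)
    rw [zpow_zero, ← h] at h1
    exact absurd h1 (not_lt.2 ha1)
  · subst hk
    simpa using h
  · exfalso
    have h1 : ε ^ (2 * k) < ε ^ (1 : ℤ) :=
      zpow_lt_zpow_right_of_lt_one₀ hε0 hε (show (1 : ℤ) < 2 * k by omega)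
    rw [zpow_one, ← h] at h1
    exact absurd h1 (not_lt.2 ha)

lemma ecord_eq_one_of_sim_right {ε a : Γ₀} (hε0 : 0 < ε) (hε : ε < 1) (ha : ε ≤ a) (ha1 : a ≤ 1)
    (h : Sim ε a 1) : a = 1 := by
  obtain ⟨k, hk | hk⟩ := h
  · exact ecord_zpow_eq_one hε0 hε ha ha1 k (by rw [hk, one_mul])
  · exact ecord_zpow_eq_one hε0 hε ha ha1 k (by rw [← hk, mul_one])

lemma ecord_eq_one_of_sim_left {ε a : Γ₀} (hε0 : 0 < ε) (hε : ε < 1) (ha : ε ≤ a) (ha1 : a ≤ 1)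
    (h : Sim ε 1 a) : a = 1 :=
  ecord_eq_one_of_sim_right hε0 hε ha ha1 (Sim.symm (ne_of_gt hε0) h)

lemma ecord_eq_one_of_sim_inv {ε a : Γ₀} (hε0 : 0 < ε) (hε : ε < 1) (ha : ε ≤ a) (ha1 : a ≤ 1)
    (h : Sim ε 1 (1 / a)) : a = 1 := by
  have ha0 : a ≠ 0 := ne_of_gt (lt_of_lt_of_le hε0 ha)
  have hε' : ε ≠ 0 := ne_of_gt hε0
  obtain ⟨k, hk | hk⟩ := h
  · -- `1 = (1/a) ε^{2k}`
    refine ecord_zpow_eq_one hε0 hε ha ha1 k ?_
    have : a = a * 1 := (mul_one a).symm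
    rw [this, hk, ← mul_assoc, mul_one_div, div_self ha0, one_mul]
  · -- `1/a = ε^{2k}`
    refine ecord_zpow_eq_one hε0 hε ha ha1 (-k) ?_
    rw [one_mul] at hk
    have h2 : ε ^ (2 * -k) = (ε ^ (2 * k))⁻¹ := by
      rw [show 2 * -k = -(2 * k) by ring, zpow_neg]
    rw [h2, ← hk, one_div, inv_inv]

end Zero

section Nu

variable {K : Type*} [Field K] [DecidableEq K] {Γ₀ : Type*} [LinearOrderedCommGroupWithZero Γ₀]
  (v : Valuation K Γ₀) {W : WeierstrassCurve K} {r₁ e₂ e₃ : K}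

/-- `E⁰` is closed under addition. -/
theorem ecord_nu_add (hb₂ : W.b₂ = -4 * (3 * r₁ + e₂ + e₃))
    (hb₄ : W.b₄ = 2 * (r₁ * (r₁ + e₂) + r₁ * (r₁ + e₃) + (r₁ + e₂) * (r₁ + e₃)))
    (hb₆ : W.b₆ = -4 * (r₁ * (r₁ + e₂) * (r₁ + e₃)))
    (h2 : v (2 : K) = 1) (he₃ : v e₃ = 1) (he₂ : v e₂ < 1) (he₂0 : e₂ ≠ 0)
    {P Q : W.toAffine.Point} (hP : nu v r₁ (v e₂) P = 1) (hQ : nu v r₁ (v e₂) Q = 1) :
    nu v r₁ (v e₂) (P + Q) = 1 := by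
  have hε0 : 0 < v e₂ := zero_lt_iff.mpr ((Valuation.ne_zero_iff v).mpr he₂0)
  by_contra hne
  have hlt : nu v r₁ (v e₂) (P + Q) < 1 := lt_of_le_of_ne (nu_le_one v r₁ (v e₂) _) hne
  have hle : v e₂ ≤ nu v r₁ (v e₂) (P + Q) := le_nu v r₁ (v e₂) he₂.le _
  have hsum : -Q + (P + Q) = P := by abel
  have hq := qp v hb₂ hb₄ hb₆ h2 he₃ he₂ he₂0 (-Q) (P + Q) hlt
  rw [hsum, hP, nu_neg, hQ] at hq
  rcases hq with ⟨h1, -⟩ | ⟨h1, -⟩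
  · rw [one_mul] at h1
    exact hne (ecord_eq_one_of_sim_left hε0 he₂ hle hlt.le h1)
  · exact hne (ecord_eq_one_of_sim_inv hε0 he₂ hle hlt.le h1)

/-- Two points at the same tropical position `< 1` have difference or sum in `E⁰`. -/
theorem ecord_nu_pm (hb₂ : W.b₂ = -4 * (3 * r₁ + e₂ + e₃))
    (hb₄ : W.b₄ = 2 * (r₁ * (r₁ + e₂) + r₁ * (r₁ + e₃) + (r₁ + e₂) * (r₁ + e₃)))
    (hb₆ : W.b₆ = -4 * (r₁ * (r₁ + e₂) * (r₁ + e₃)))
    (h2 : v (2 : K) = 1) (he₃ : v e₃ = 1) (he₂ : v e₂ < 1) (he₂0 : e₂ ≠ 0)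
    {P Q : W.toAffine.Point} (hPQ : nu v r₁ (v e₂) P = nu v r₁ (v e₂) Q)
    (hQ : nu v r₁ (v e₂) Q < 1) :
    nu v r₁ (v e₂) (P - Q) = 1 ∨ nu v r₁ (v e₂) (P + Q) = 1 := by
  have hε0 : 0 < v e₂ := zero_lt_iff.mpr ((Valuation.ne_zero_iff v).mpr he₂0)
  have hQ0 : nu v r₁ (v e₂) Q ≠ 0 :=
    ne_of_gt (lt_of_lt_of_le hε0 (le_nu v r₁ (v e₂) he₂.le Q))
  have hq := qp v hb₂ hb₄ hb₆ h2 he₃ he₂ he₂0 P Q hQ
  rw [hPQ, div_self hQ0] at hq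
  rcases hq with ⟨-, h1⟩ | ⟨h1, -⟩
  · exact Or.inl (ecord_eq_one_of_sim_right hε0 he₂ (le_nu v r₁ (v e₂) he₂.le _)
      (nu_le_one v r₁ (v e₂) _) h1)
  · exact Or.inr (ecord_eq_one_of_sim_right hε0 he₂ (le_nu v r₁ (v e₂) he₂.le _)
      (nu_le_one v r₁ (v e₂) _) h1)

/-- The subgroup `E⁰` of points with nonsingular reduction (`nu = 1`). -/
def ecordE0 (hb₂ : W.b₂ = -4 * (3 * r₁ + e₂ + e₃))
    (hb₄ : W.b₄ = 2 * (r₁ * (r₁ + e₂) + r₁ * (r₁ + e₃) + (r₁ + e₂) * (r₁ + e₃)))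
    (hb₆ : W.b₆ = -4 * (r₁ * (r₁ + e₂) * (r₁ + e₃)))
    (h2 : v (2 : K) = 1) (he₃ : v e₃ = 1) (he₂ : v e₂ < 1) (he₂0 : e₂ ≠ 0) :
    AddSubgroup W.toAffine.Point where
  carrier := {P | nu v r₁ (v e₂) P = 1}
  zero_mem' := nu_zero v r₁ (v e₂)
  add_mem' := fun hP hQ => ecord_nu_add v hb₂ hb₄ hb₆ h2 he₃ he₂ he₂0 hP hQ
  neg_mem' := fun {P} hP => by
    show nu v r₁ (v e₂) (-P) = 1
    rw [nu_neg]; exact hP

theorem mem_ecordE0 (hb₂ : W.b₂ = -4 * (3 * r₁ + e₂ + e₃))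
    (hb₄ : W.b₄ = 2 * (r₁ * (r₁ + e₂) + r₁ * (r₁ + e₃) + (r₁ + e₂) * (r₁ + e₃)))
    (hb₆ : W.b₆ = -4 * (r₁ * (r₁ + e₂) * (r₁ + e₃)))
    (h2 : v (2 : K) = 1) (he₃ : v e₃ = 1) (he₂ : v e₂ < 1) (he₂0 : e₂ ≠ 0)
    (P : W.toAffine.Point) :
    P ∈ ecordE0 v hb₂ hb₄ hb₆ h2 he₃ he₂ he₂0 ↔ nu v r₁ (v e₂) P = 1 := Iff.rfl

/-- `nu = 1` for an affine point iff `1 ≤ v (x - r₁)`. -/
theorem ecord_nu_some_eq_one_iff (he₂ : v e₂ < 1) {x y : K} (h : W.toAffine.Nonsingular x y) :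
    nu v r₁ (v e₂) (Point.some x y h) = 1 ↔ 1 ≤ v (x - r₁) := by
  constructor
  · intro h1
    by_contra hlt
    rw [not_le] at hlt
    have : nu v r₁ (v e₂) (Point.some x y h) < 1 := by
      rw [nu_some, clip]
      exact lt_of_le_of_lt (min_le_right _ _) (max_lt he₂ hlt)
    exact absurd h1 (ne_of_lt this)
  · intro h1
    exact nu_of_ge v r₁ (v e₂) h h1

/-- `nu < 1` for an affine point iff `v (x - r₁) < 1`. -/
theorem ecord_nu_some_lt_one_iff (he₂ : v e₂ < 1) {x y : K} (h : W.toAffine.Nonsingular x y) :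
    nu v r₁ (v e₂) (Point.some x y h) < 1 ↔ v (x - r₁) < 1 := by
  rw [← not_le, ← not_le, not_iff_not]
  constructor
  · intro h1
    exact (ecord_nu_some_eq_one_iff v he₂ h).1 (le_antisymm (nu_le_one v r₁ (v e₂) _) h1)
  · intro h1
    exact ((ecord_nu_some_eq_one_iff v he₂ h).2 h1).ge

end Nu

end Fermat.Agent.EC
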