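/-
EC / Ord (helper77): a `p`-torsion point reducing to the node, `p ∈ {3, 5}`.

`K` algebraically closed, `A` a valuation subring with `v 2 = 1`, `W` a Weierstrass curve over `K`
with `Δ ≠ 0` whose 2-division cubic is `4 (x - r₁)(x - r₁ - e₂)(x - r₁ - e₃)`, `v e₂ < 1`,
`v e₃ = 1` (a node at `r₁`).  If `v p < 1` (`p = 3` or `p = 5`) there is a point `P` with
`p • P = 0` and `v (x(P) - r₁) < 1`   (`ecord_exists_near_three`, `ecord_exists_near_five`).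

Proof: the division polynomial `preΨ_p` takes a non-unit value at `r₁` and a unit value at
`r₁ + 1` (explicit: `preΨ₃(r₁ + t) ≡ -4 e₃ t³`, `preΨ₅(r₁ + t) ≡ 16 e₃² t¹⁰` modulo `(p, e₂)`),
so it has a root `x` with `v (x - r₁) < 1` (`ecord_exists_root_near`).
-/
import Mathlib
import Fermat.Agent.S13.DivPoly.Bridge
import Fermat.Agent.S05.Assembly
import Fermat.Agent.EC.Ord.Zero

set_option autoImplicit false
set_option linter.unusedSectionVars false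
set_option linter.unusedVariables false
set_option linter.unusedSimpArgs false

namespace Fermat.Agent.EC

open WeierstrassCurve WeierstrassCurve.Affine Polynomial Fermat.Agent.S05

section Root

variable {K : Type*} [Field K] {Γ₀ : Type*} [LinearOrderedCommGroupWithZero Γ₀]
  (v : Valuation K Γ₀)

theorem ecord_val_prod_le (s : Multiset K) (a b : K)
    (h : ∀ ξ ∈ s, v (b - ξ) ≤ v (a - ξ)) :
    v (s.map (fun ξ => b - ξ)).prod ≤ v (s.map (fun ξ => a - ξ)).prod := by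
  induction s using Multiset.induction_on with
  | empty => simp
  | cons ξ s ih =>
    rw [Multiset.map_cons, Multiset.map_cons, Multiset.prod_cons, Multiset.prod_cons, map_mul,
      map_mul]
    exact mul_le_mul' (h ξ (Multiset.mem_cons_self ξ s))
      (ih (fun η hη => h η (Multiset.mem_cons_of_mem hη)))

/-- A polynomial over an algebraically closed valued field whose value at `a` is smaller than
its value at `b`, with `v (b - a) ≤ 1`, has a root `ξ` with `v (ξ - a) < 1`. -/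
theorem ecord_exists_root_near [IsAlgClosed K] (g : K[X]) (a b : K) (hab : v (b - a) ≤ 1)
    (hlt : v (g.eval a) < v (g.eval b)) : ∃ ξ : K, g.eval ξ = 0 ∧ v (ξ - a) < 1 := by
  by_contra hcon
  rw [not_exists] at hcon
  replace hcon : ∀ ξ : K, g.eval ξ = 0 → 1 ≤ v (ξ - a) := fun ξ h0 =>
    not_lt.1 (fun hlt' => hcon ξ ⟨h0, hlt'⟩)
  have hsplit : g.Splits := IsAlgClosed.splits g
  have hfac := hsplit.eq_prod_roots
  have hev : ∀ t : K, g.eval t = g.leadingCoeff * (g.roots.map (fun ξ => t - ξ)).prod := by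
    intro t
    conv_lhs => rw [hfac]
    rw [eval_mul, eval_C, eval_multiset_prod, Multiset.map_map]
    congr 2
    refine Multiset.map_congr rfl (fun ξ _ => ?_)
    simp
  have hg0 : g ≠ 0 := by
    rintro rfl
    simp at hlt
  have hle : v (g.roots.map (fun ξ => b - ξ)).prod ≤ v (g.roots.map (fun ξ => a - ξ)).prod := by
    refine ecord_val_prod_le v _ a b (fun ξ hξ => ?_)
    have hroot : g.eval ξ = 0 := (mem_roots hg0).1 hξ
    have h1 : 1 ≤ v (ξ - a) := hcon ξ hroot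
    have h1' : 1 ≤ v (a - ξ) := by rw [← Valuation.map_neg, neg_sub]; exact h1
    have e : b - ξ = (b - a) + (a - ξ) := by ring
    rw [e]
    exact (Valuation.map_add _ _ _).trans (max_le (hab.trans h1') le_rfl)
  rw [hev a, hev b, map_mul, map_mul] at hlt
  exact absurd hlt (not_lt.2 (mul_le_mul' le_rfl hle))

end Root

section Eval

variable {K : Type*} [Field K] [DecidableEq K] {W : WeierstrassCurve K} {r₁ e₂ e₃ : K}

theorem ecord_b₈_eq (h40 : (4 : K) ≠ 0) (hr : RootData W r₁ e₂ e₃) :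
    W.b₈ = 4 * (3 * r₁ + e₂ + e₃) * (r₁ * (r₁ + e₂) * (r₁ + e₃))
      - (r₁ * (r₁ + e₂) + r₁ * (r₁ + e₃) + (r₁ + e₂) * (r₁ + e₃)) ^ 2 := by
  apply mul_left_cancel₀ h40
  rw [W.b_relation, hr.hb₂, hr.hb₄, hr.hb₆]; ring

theorem ecord_eval_Ψ₂Sq (hr : RootData W r₁ e₂ e₃) (t : K) :
    W.Ψ₂Sq.eval (r₁ + t) = 4 * t * (t - e₂) * (t - e₃) := by
  simp only [Ψ₂Sq, eval_add, eval_mul, eval_pow, eval_C, eval_X, eval_ofNat]
  rw [hr.hb₂, hr.hb₄, hr.hb₆]; ring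

theorem ecord_eval_Ψ₃ (h40 : (4 : K) ≠ 0) (hr : RootData W r₁ e₂ e₃) (t : K) :
    W.Ψ₃.eval (r₁ + t) = 3 * t ^ 4 - 4 * (e₂ + e₃) * t ^ 3 + 6 * e₂ * e₃ * t ^ 2
      - e₂ ^ 2 * e₃ ^ 2 := by
  simp only [Ψ₃, eval_add, eval_mul, eval_pow, eval_C, eval_X, eval_ofNat]
  rw [ecord_b₈_eq h40 hr, hr.hb₂, hr.hb₄, hr.hb₆]; ring

theorem ecord_eval_preΨ₄ (h40 : (4 : K) ≠ 0) (hr : RootData W r₁ e₂ e₃) (t : K) :
    W.preΨ₄.eval (r₁ + t) = 2 * t ^ 6 - 4 * (e₂ + e₃) * t ^ 5 + 10 * e₂ * e₃ * t ^ 4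
      - 10 * e₂ ^ 2 * e₃ ^ 2 * t ^ 2 + 4 * (e₂ + e₃) * e₂ ^ 2 * e₃ ^ 2 * t
      - 2 * e₂ ^ 3 * e₃ ^ 3 := by
  simp only [preΨ₄, eval_add, eval_sub, eval_mul, eval_pow, eval_C, eval_X, eval_ofNat]
  rw [ecord_b₈_eq h40 hr, hr.hb₂, hr.hb₄, hr.hb₆]; ring

theorem ecord_preΨ_five (W : WeierstrassCurve K) :
    W.preΨ 5 = W.preΨ₄ * W.Ψ₂Sq ^ 2 - W.Ψ₃ ^ 3 := by
  have h := W.preΨ_odd 2
  have e1 : (2 : ℤ) * 2 + 1 = 5 := by norm_num
  have e2 : (2 : ℤ) + 2 = 4 := by norm_num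
  have e3 : (2 : ℤ) - 1 = 1 := by norm_num
  have e4 : (2 : ℤ) + 1 = 3 := by norm_num
  rw [e1, e2, e3, e4, if_pos (by decide), if_pos (by decide), preΨ_four, preΨ_two, preΨ_one,
    preΨ_three] at h
  rw [h]; ring

end Eval

section Units

variable {K : Type*} [Field K] [DecidableEq K] (A : ValuationSubring K)
  {W : WeierstrassCurve K} {r₁ e₂ e₃ : K}

theorem ecord_residue_eq_zero {a : A} (ha : A.valuation (a : K) < 1) :
    IsLocalRing.residue A a = 0 := by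
  rw [IsLocalRing.residue_eq_zero_iff]
  exact (A.valuation_lt_one_iff a).2 ha

theorem ecord_val_eq_one_of_residue {a : A} (ha : IsLocalRing.residue A a ≠ 0) :
    A.valuation (a : K) = 1 :=
  (A.valuation_eq_one_iff a).1 ((IsLocalRing.residue_ne_zero_iff_isUnit a).1 ha)

theorem ecord_residue_ne_zero {a : A} (ha : A.valuation (a : K) = 1) :
    IsLocalRing.residue A a ≠ 0 :=
  (IsLocalRing.residue_ne_zero_iff_isUnit a).2 ((A.valuation_eq_one_iff a).2 ha)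

theorem ecord_residue_two_ne_zero (h2 : A.valuation (2 : K) = 1) :
    (2 : IsLocalRing.ResidueField A) ≠ 0 := by
  have h : IsLocalRing.residue A (2 : A) ≠ 0 :=
    ecord_residue_ne_zero A (by rw [show ((2 : A) : K) = 2 from rfl]; exact h2)
  rwa [map_ofNat] at h

theorem ecord_residue_ofNat_eq_zero (n : ℕ) [n.AtLeastTwo]
    (hn : A.valuation (OfNat.ofNat n : K) < 1) :
    (OfNat.ofNat n : IsLocalRing.ResidueField A) = 0 := by
  have h : IsLocalRing.residue A (OfNat.ofNat n : A) = 0 :=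
    ecord_residue_eq_zero A (by rw [show ((OfNat.ofNat n : A) : K) = OfNat.ofNat n from rfl]; exact hn)
  rwa [map_ofNat] at h

/-- `preΨ₃ (r₁ + 1)` is a unit when `v 3 < 1`. -/
theorem ecord_preΨ_three_unit (h2 : A.valuation (2 : K) = 1) (h3 : A.valuation (3 : K) < 1)
    (hr : RootData W r₁ e₂ e₃) (he₂ : A.valuation e₂ < 1) (he₃ : A.valuation e₃ = 1) :
    A.valuation ((W.preΨ 3).eval (r₁ + 1)) = 1 := by
  have h20 : (2 : K) ≠ 0 := key_val_two_ne_zero _ h2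
  have h40 : (4 : K) ≠ 0 := by
    have : (4 : K) = 2 * 2 := by norm_num
    rw [this]; exact mul_ne_zero h20 h20
  have he₂A : e₂ ∈ A := (A.valuation_le_one_iff _).1 he₂.le
  have he₃A : e₃ ∈ A := (A.valuation_le_one_iff _).1 he₃.le
  set a : A := ⟨e₂, he₂A⟩ with ha
  set b : A := ⟨e₃, he₃A⟩ with hb
  rw [preΨ_three, ecord_eval_Ψ₃ h40 hr]
  have hcast : (3 * (1 : K) ^ 4 - 4 * (e₂ + e₃) * 1 ^ 3 + 6 * e₂ * e₃ * 1 ^ 2 - e₂ ^ 2 * e₃ ^ 2)
      = ((3 * 1 ^ 4 - 4 * (a + b) * 1 ^ 3 + 6 * a * b * 1 ^ 2 - a ^ 2 * b ^ 2 : A) : K) := by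
    push_cast
    rfl
  rw [hcast]
  apply ecord_val_eq_one_of_residue
  have hra : IsLocalRing.residue A a = 0 := ecord_residue_eq_zero A he₂
  have hr3' : (3 : IsLocalRing.ResidueField A) = 0 := ecord_residue_ofNat_eq_zero A 3 h3
  have hrb : IsLocalRing.residue A b ≠ 0 := ecord_residue_ne_zero A he₃
  have hr2' : (2 : IsLocalRing.ResidueField A) ≠ 0 := ecord_residue_two_ne_zero A h2
  have key : IsLocalRing.residue A
      (3 * 1 ^ 4 - 4 * (a + b) * 1 ^ 3 + 6 * a * b * 1 ^ 2 - a ^ 2 * b ^ 2 : A) =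
      -(2 * 2 * IsLocalRing.residue A b) := by
    simp only [map_sub, map_add, map_mul, map_pow, map_one, map_ofNat, hra]
    linear_combination hr3'
  rw [key]
  exact neg_ne_zero.2 (mul_ne_zero (mul_ne_zero hr2' hr2') hrb)

/-- `preΨ₃ r₁` is a non-unit. -/
theorem ecord_preΨ_three_node (h2 : A.valuation (2 : K) = 1)
    (hr : RootData W r₁ e₂ e₃) (he₂ : A.valuation e₂ < 1) (he₃ : A.valuation e₃ = 1) :
    A.valuation ((W.preΨ 3).eval r₁) < 1 := by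
  have h20 : (2 : K) ≠ 0 := key_val_two_ne_zero _ h2
  have h40 : (4 : K) ≠ 0 := by
    have : (4 : K) = 2 * 2 := by norm_num
    rw [this]; exact mul_ne_zero h20 h20
  have e := ecord_eval_Ψ₃ h40 hr 0
  rw [add_zero] at e
  rw [preΨ_three, e]
  have : (3 * (0 : K) ^ 4 - 4 * (e₂ + e₃) * 0 ^ 3 + 6 * e₂ * e₃ * 0 ^ 2 - e₂ ^ 2 * e₃ ^ 2)
      = -(e₂ ^ 2 * e₃ ^ 2) := by ring
  rw [this, Valuation.map_neg, map_mul, map_pow, map_pow, he₃, one_pow, mul_one]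
  exact pow_lt_one₀ zero_le he₂ two_ne_zero

/-- `preΨ₅ (r₁ + 1)` is a unit when `v 5 < 1`. -/
theorem ecord_preΨ_five_unit (h2 : A.valuation (2 : K) = 1) (h5 : A.valuation (5 : K) < 1)
    (hr : RootData W r₁ e₂ e₃) (he₂ : A.valuation e₂ < 1) (he₃ : A.valuation e₃ = 1) :
    A.valuation ((W.preΨ 5).eval (r₁ + 1)) = 1 := by
  have h20 : (2 : K) ≠ 0 := key_val_two_ne_zero _ h2
  have h40 : (4 : K) ≠ 0 := by
    have : (4 : K) = 2 * 2 := by norm_num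
    rw [this]; exact mul_ne_zero h20 h20
  have he₂A : e₂ ∈ A := (A.valuation_le_one_iff _).1 he₂.le
  have he₃A : e₃ ∈ A := (A.valuation_le_one_iff _).1 he₃.le
  set a : A := ⟨e₂, he₂A⟩ with ha
  set b : A := ⟨e₃, he₃A⟩ with hb
  rw [ecord_preΨ_five, eval_sub, eval_mul, eval_pow, eval_pow, ecord_eval_Ψ₃ h40 hr,
    ecord_eval_preΨ₄ h40 hr, ecord_eval_Ψ₂Sq hr]
  have hcast : ((2 * (1 : K) ^ 6 - 4 * (e₂ + e₃) * 1 ^ 5 + 10 * e₂ * e₃ * 1 ^ 4
      - 10 * e₂ ^ 2 * e₃ ^ 2 * 1 ^ 2 + 4 * (e₂ + e₃) * e₂ ^ 2 * e₃ ^ 2 * 1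
      - 2 * e₂ ^ 3 * e₃ ^ 3) * (4 * 1 * (1 - e₂) * (1 - e₃)) ^ 2
      - (3 * 1 ^ 4 - 4 * (e₂ + e₃) * 1 ^ 3 + 6 * e₂ * e₃ * 1 ^ 2 - e₂ ^ 2 * e₃ ^ 2) ^ 3)
      = (((2 * 1 ^ 6 - 4 * (a + b) * 1 ^ 5 + 10 * a * b * 1 ^ 4
      - 10 * a ^ 2 * b ^ 2 * 1 ^ 2 + 4 * (a + b) * a ^ 2 * b ^ 2 * 1
      - 2 * a ^ 3 * b ^ 3) * (4 * 1 * (1 - a) * (1 - b)) ^ 2
      - (3 * 1 ^ 4 - 4 * (a + b) * 1 ^ 3 + 6 * a * b * 1 ^ 2 - a ^ 2 * b ^ 2) ^ 3 : A) : K) := by
    push_cast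
    rfl
  rw [hcast]
  apply ecord_val_eq_one_of_residue
  have hra : IsLocalRing.residue A a = 0 := ecord_residue_eq_zero A he₂
  have hr5' : (5 : IsLocalRing.ResidueField A) = 0 := ecord_residue_ofNat_eq_zero A 5 h5
  have hrb : IsLocalRing.residue A b ≠ 0 := ecord_residue_ne_zero A he₃
  have hr2' : (2 : IsLocalRing.ResidueField A) ≠ 0 := ecord_residue_two_ne_zero A h2
  have key : IsLocalRing.residue A
      ((2 * 1 ^ 6 - 4 * (a + b) * 1 ^ 5 + 10 * a * b * 1 ^ 4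
      - 10 * a ^ 2 * b ^ 2 * 1 ^ 2 + 4 * (a + b) * a ^ 2 * b ^ 2 * 1
      - 2 * a ^ 3 * b ^ 3) * (4 * 1 * (1 - a) * (1 - b)) ^ 2
      - (3 * 1 ^ 4 - 4 * (a + b) * 1 ^ 3 + 6 * a * b * 1 ^ 2 - a ^ 2 * b ^ 2) ^ 3 : A) =
      (2 * 2 * IsLocalRing.residue A b) ^ 2 := by
    simp only [map_sub, map_add, map_mul, map_pow, map_one, map_ofNat, hra]
    linear_combination (1 - 4 * IsLocalRing.residue A b) * hr5'
  rw [key]
  exact pow_ne_zero 2 (mul_ne_zero (mul_ne_zero hr2' hr2') hrb)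

/-- `preΨ₅ r₁` is a non-unit. -/
theorem ecord_preΨ_five_node (h2 : A.valuation (2 : K) = 1)
    (hr : RootData W r₁ e₂ e₃) (he₂ : A.valuation e₂ < 1) (he₃ : A.valuation e₃ = 1) :
    A.valuation ((W.preΨ 5).eval r₁) < 1 := by
  have h20 : (2 : K) ≠ 0 := key_val_two_ne_zero _ h2
  have h40 : (4 : K) ≠ 0 := by
    have : (4 : K) = 2 * 2 := by norm_num
    rw [this]; exact mul_ne_zero h20 h20
  have e3 := ecord_eval_Ψ₃ h40 hr 0
  have e4 := ecord_eval_preΨ₄ h40 hr 0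
  have e2 := ecord_eval_Ψ₂Sq hr 0
  rw [add_zero] at e2 e3 e4
  rw [ecord_preΨ_five, eval_sub, eval_mul, eval_pow, eval_pow, e2, e3, e4]
  have : ((2 * (0 : K) ^ 6 - 4 * (e₂ + e₃) * 0 ^ 5 + 10 * e₂ * e₃ * 0 ^ 4
      - 10 * e₂ ^ 2 * e₃ ^ 2 * 0 ^ 2 + 4 * (e₂ + e₃) * e₂ ^ 2 * e₃ ^ 2 * 0
      - 2 * e₂ ^ 3 * e₃ ^ 3) * (4 * 0 * (0 - e₂) * (0 - e₃)) ^ 2
      - (3 * 0 ^ 4 - 4 * (e₂ + e₃) * 0 ^ 3 + 6 * e₂ * e₃ * 0 ^ 2 - e₂ ^ 2 * e₃ ^ 2) ^ 3)
      = e₂ ^ 6 * e₃ ^ 6 := by ring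
  rw [this, map_mul, map_pow, map_pow, he₃, one_pow, mul_one]
  exact pow_lt_one₀ zero_le he₂ (by norm_num)

end Units

section Exists

variable {K : Type*} [Field K] [DecidableEq K] [IsAlgClosed K] (A : ValuationSubring K)
  {W : WeierstrassCurve K} {r₁ e₂ e₃ : K}

theorem ecord_exists_root_quadratic (b c : K) : ∃ r : K, r ^ 2 + b * r + c = 0 := by
  have hdeg : (C (1 : K) * X ^ 2 + C b * X + C c).degree ≠ 0 := by
    rw [degree_quadratic one_ne_zero]; decide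
  obtain ⟨r, hr⟩ := IsAlgClosed.exists_root _ hdeg
  refine ⟨r, ?_⟩
  simpa only [IsRoot.def, eval_add, eval_mul, eval_C, eval_pow, eval_X, one_mul] using hr

/-- From a root of `preΨ_n` (`n` odd) near the node to an `n`-torsion point near the node. -/
theorem ecord_exists_near_of_root (h2 : A.valuation (2 : K) = 1) (hΔ : W.Δ ≠ 0)
    (he₂ : A.valuation e₂ < 1) {n : ℕ} (hn : Odd n)
    {x : K} (hx : (W.preΨ (n : ℤ)).eval x = 0) (hxr : A.valuation (x - r₁) < 1) :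
    ∃ P : W.toAffine.Point, n • P = 0 ∧ nu A.valuation r₁ (A.valuation e₂) P < 1 := by
  have h20 : (2 : K) ≠ 0 := key_val_two_ne_zero _ h2
  obtain ⟨y, hy⟩ := ecord_exists_root_quadratic (W.a₁ * x + W.a₃)
    (-(x ^ 3 + W.a₂ * x ^ 2 + W.a₄ * x + W.a₆))
  have heq : W.toAffine.Equation x y := by
    rw [Affine.equation_iff]
    linear_combination hy
  have hns : W.toAffine.Nonsingular x y :=
    (W.toAffine.equation_iff_nonsingular_of_Δ_ne_zero hΔ).1 heq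
  refine ⟨Point.some x y hns, ?_, ?_⟩
  · have hodd : Odd ((n : ℕ) : ℤ) := by exact_mod_cast hn
    refine Fermat.Agent.S13.smul_eq_zero_of_psiAt_eq_zero (W := W) h20 hns n hn.pos ?_
    rw [Fermat.Agent.S13.psiAt_eq_eval_preΨ _ hns.1 hodd]
    exact hx
  · exact (ecord_nu_some_lt_one_iff A.valuation he₂ hns).2 hxr

/-- **A `3`-torsion point reducing to the node.** -/
theorem ecord_exists_near_three (h2 : A.valuation (2 : K) = 1) (h3 : A.valuation (3 : K) < 1)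
    (hΔ : W.Δ ≠ 0) (hr : RootData W r₁ e₂ e₃) (he₂ : A.valuation e₂ < 1)
    (he₃ : A.valuation e₃ = 1) :
    ∃ P : W.toAffine.Point, 3 • P = 0 ∧ nu A.valuation r₁ (A.valuation e₂) P < 1 := by
  have hlt : A.valuation ((W.preΨ 3).eval r₁) < A.valuation ((W.preΨ 3).eval (r₁ + 1)) := by
    rw [ecord_preΨ_three_unit A h2 h3 hr he₂ he₃]
    exact ecord_preΨ_three_node A h2 hr he₂ he₃
  obtain ⟨x, hx, hxr⟩ := ecord_exists_root_near A.valuation (W.preΨ 3) r₁ (r₁ + 1)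
    (by simp) hlt
  exact ecord_exists_near_of_root A h2 hΔ he₂ (n := 3) (by decide) (by exact_mod_cast hx) hxr

/-- **A `5`-torsion point reducing to the node.** -/
theorem ecord_exists_near_five (h2 : A.valuation (2 : K) = 1) (h5 : A.valuation (5 : K) < 1)
    (hΔ : W.Δ ≠ 0) (hr : RootData W r₁ e₂ e₃) (he₂ : A.valuation e₂ < 1)
    (he₃ : A.valuation e₃ = 1) :
    ∃ P : W.toAffine.Point, 5 • P = 0 ∧ nu A.valuation r₁ (A.valuation e₂) P < 1 := by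
  have hlt : A.valuation ((W.preΨ 5).eval r₁) < A.valuation ((W.preΨ 5).eval (r₁ + 1)) := by
    rw [ecord_preΨ_five_unit A h2 h5 hr he₂ he₃]
    exact ecord_preΨ_five_node A h2 hr he₂ he₃
  obtain ⟨x, hx, hxr⟩ := ecord_exists_root_near A.valuation (W.preΨ 5) r₁ (r₁ + 1)
    (by simp) hlt
  exact ecord_exists_near_of_root A h2 hΔ he₂ (n := 5) (by decide) (by exact_mod_cast hx) hxr

end Exists

end Fermat.Agent.EC
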