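/-
EC / Ord (helper77): Galois action at a node, for ALL torsion (also of residue characteristic
order).

`W₀` over `ℚ`, `L/ℚ` algebraic, `A` a valuation subring of `L` with `v 2 = 1` at which the
2-division cubic is `4 (x - r₁)(x - r₁ - e₂)(x - r₁ - e₃)` with a node at `r₁`
(`0 < v e₂ < 1`, `e₃`, `e₃ - e₂` units), `nu` the clipped valuation of S05 (`nu = 1` ⟺ the point
has nonsingular reduction or is in the kernel of reduction).

* `ecord_nu_smul`      : `nu (σ • P) = nu P` for `σ` in the decomposition group;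
* `ecord_inertia_move` : `nu (σ • P - P) = 1` for `σ` in the inertia group, `P` of odd order;
* `ecord_decomp_sign`  : `nu (σ • P - P) = 1 ∨ nu (σ • P + P) = 1` for `σ` in the decomposition
  group.
-/
import Mathlib
import Fermat.Agent.RED.UnipFix
import Fermat.Agent.EC.Ord.Zero

set_option autoImplicit false
set_option linter.unusedSectionVars false
set_option linter.unusedVariables false

namespace Fermat.Agent.EC

open WeierstrassCurve WeierstrassCurve.Affine Fermat.Agent.S05 Fermat.Agent.RED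

variable {L : Type*} [Field L] [DecidableEq L] [Algebra ℚ L]

section Mid

variable (W₀ : WeierstrassCurve ℚ) (σ : L ≃ₐ[ℚ] L)

theorem ecord_galois_b₄ : σ (W₀.baseChange L).b₄ = (W₀.baseChange L).b₄ := by
  simp [WeierstrassCurve.baseChange, WeierstrassCurve.map_b₄]

theorem ecord_galois_dcub (x : L) :
    dcub (W₀.baseChange L) (σ x) = σ (dcub (W₀.baseChange L) x) := by
  simp only [dcub, map_add, map_mul, map_pow, map_ofNat, galois_b₂, ecord_galois_b₄]

/-- The decomposition group fixes the simple root of the 2-division cubic, hence the midpoint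
`r₁ + e₂ / 2` of the two close roots. -/
theorem ecord_midpoint_fixed [Algebra.IsAlgebraic ℚ L] (A : ValuationSubring L)
    (hσ : σ ∈ A.decompositionSubgroup ℚ)
    (h2 : A.valuation (2 : L) = 1) {r₁ e₂ e₃ : L}
    (hr : RootData (W₀.baseChange L) r₁ e₂ e₃)
    (he₂ : A.valuation e₂ < 1)
    (he₃ : A.valuation e₃ = 1) (he₂₃ : A.valuation (e₃ - e₂) = 1) :
    σ (r₁ + e₂ / 2) = r₁ + e₂ / 2 := by
  have h20 : (2 : L) ≠ 0 := key_val_two_ne_zero _ h2
  have h40 : (4 : L) ≠ 0 := by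
    have : (4 : L) = 2 * 2 := by norm_num
    rw [this]; exact mul_ne_zero h20 h20
  have hb₂ := hr.hb₂
  have hb₄ := hr.hb₄
  have hb₆ := hr.hb₆
  have hroot : 4 * (r₁ + e₃) ^ 3 + (W₀.baseChange L).b₂ * (r₁ + e₃) ^ 2
      + 2 * (W₀.baseChange L).b₄ * (r₁ + e₃) + (W₀.baseChange L).b₆ = 0 := by
    rw [hb₂, hb₄, hb₆]; ring
  have hσb₂ : σ (W₀.baseChange L).b₂ = (W₀.baseChange L).b₂ := galois_b₂ W₀ σ
  have hσb₄ : σ (W₀.baseChange L).b₄ = (W₀.baseChange L).b₄ := ecord_galois_b₄ W₀ σ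
  have hσb₆ : σ (W₀.baseChange L).b₆ = (W₀.baseChange L).b₆ := by
    simp [WeierstrassCurve.baseChange, WeierstrassCurve.map_b₆]
  have hroot' : 4 * (σ (r₁ + e₃)) ^ 3 + (W₀.baseChange L).b₂ * (σ (r₁ + e₃)) ^ 2
      + 2 * (W₀.baseChange L).b₄ * (σ (r₁ + e₃)) + (W₀.baseChange L).b₆ = 0 := by
    have := congrArg σ hroot
    simpa only [map_add, map_mul, map_pow, map_ofNat, hσb₂, hσb₄, hσb₆, map_zero] using this
  have hfac : 4 * ((σ (r₁ + e₃) - r₁) * (σ (r₁ + e₃) - r₁ - e₂) * (σ (r₁ + e₃) - r₁ - e₃))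
      = 0 := by
    rw [← hroot', hb₂, hb₄, hb₆]; ring
  -- the half derivative at the simple root is a unit
  have hd : A.valuation (dcub (W₀.baseChange L) (r₁ + e₃)) = 1 := by
    rw [hr.dcub_eq]
    have : 2 * ((r₁ + e₃ - r₁) * (r₁ + e₃ - r₁ - e₂) + (r₁ + e₃ - r₁) * (r₁ + e₃ - r₁ - e₃)
        + (r₁ + e₃ - r₁ - e₂) * (r₁ + e₃ - r₁ - e₃)) = 2 * (e₃ * (e₃ - e₂)) := by ring
    rw [this, map_mul, map_mul, h2, he₃, he₂₃, one_mul, one_mul]
  have hd' : A.valuation (dcub (W₀.baseChange L) (σ (r₁ + e₃))) = 1 := by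
    rw [ecord_galois_dcub, valuation_apply_of_mem_decomposition hσ, hd]
  have hs : σ (r₁ + e₃) = r₁ + e₃ := by
    rcases mul_eq_zero.1 hfac with h | h
    · exact absurd h h40
    rcases mul_eq_zero.1 h with h | h
    rcases mul_eq_zero.1 h with h | h
    · -- `σ s = r₁`
      exfalso
      have e : σ (r₁ + e₃) = r₁ := by linear_combination h
      rw [e, hr.dcub_eq] at hd'
      have : 2 * ((r₁ - r₁) * (r₁ - r₁ - e₂) + (r₁ - r₁) * (r₁ - r₁ - e₃)
          + (r₁ - r₁ - e₂) * (r₁ - r₁ - e₃)) = 2 * (e₂ * e₃) := by ring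
      rw [this, map_mul, map_mul, h2, he₃, one_mul, mul_one] at hd'
      exact absurd hd' (ne_of_lt he₂)
    · -- `σ s = r₁ + e₂`
      exfalso
      have e : σ (r₁ + e₃) = r₁ + e₂ := by linear_combination h
      rw [e, hr.dcub_eq] at hd'
      have : 2 * ((r₁ + e₂ - r₁) * (r₁ + e₂ - r₁ - e₂) + (r₁ + e₂ - r₁) * (r₁ + e₂ - r₁ - e₃)
          + (r₁ + e₂ - r₁ - e₂) * (r₁ + e₂ - r₁ - e₃)) = 2 * (e₂ * (-(e₃ - e₂))) := by ring
      rw [this, map_mul, map_mul, h2, Valuation.map_neg, he₂₃, one_mul, mul_one] at hd'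
      exact absurd hd' (ne_of_lt he₂)
    · linear_combination h
  have hmid : r₁ + e₂ / 2 = (-(W₀.baseChange L).b₂ / 4 - (r₁ + e₃)) / 2 := by
    rw [hb₂]; field_simp; ring
  rw [hmid, map_div₀, map_sub, map_div₀, map_neg, hσb₂, hs, map_ofNat, map_ofNat]

end Mid

section Clip

variable {Γ₀ : Type*} [LinearOrderedCommGroupWithZero Γ₀] (v : Valuation L Γ₀)

/-- The clipped valuation does not see a change of centre by an element of valuation `≤ ε`. -/
theorem ecord_clip_center {ε : Γ₀} (hε : ε ≤ 1) {x r d : L} (hd : v d ≤ ε) :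
    clip ε (v (x - (r + d))) = clip ε (v (x - r)) := by
  have e : x - (r + d) = (x - r) - d := by ring
  rcases le_or_gt (v (x - r)) ε with hle | hgt
  · have h1 : v (x - (r + d)) ≤ ε := by
      rw [e]; exact Valuation.map_sub_le _ hle hd
    rw [clip_of_le hε h1, clip_of_le hε hle]
  · rw [e, Valuation.map_sub_eq_of_lt_left _ (lt_of_le_of_lt hd hgt)]

end Clip

section Move

variable [Algebra.IsAlgebraic ℚ L]

/-- The decomposition group preserves the tropical position `nu`. -/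
theorem ecord_nu_smul (A : ValuationSubring L) {σ : L ≃ₐ[ℚ] L}
    (hσ : σ ∈ A.decompositionSubgroup ℚ) (W₀ : WeierstrassCurve ℚ)
    (h2 : A.valuation (2 : L) = 1)
    {r₁ e₂ e₃ : L} (hr : RootData (W₀.baseChange L) r₁ e₂ e₃)
    (he₂ : A.valuation e₂ < 1) (he₃ : A.valuation e₃ = 1)
    (he₂₃ : A.valuation (e₃ - e₂) = 1) (P : (W₀⁄L).Point) :
    nu A.valuation r₁ (A.valuation e₂) (σ • P) = nu A.valuation r₁ (A.valuation e₂) P := by
  rcases P with _ | ⟨x, y, h⟩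
  · rfl
  · have h' : (W₀.baseChange L).toAffine.Nonsingular (σ x) (σ y) :=
      (WeierstrassCurve.Affine.baseChange_nonsingular W₀ (f := σ.toAlgHom)
        σ.toAlgHom.injective x y).mpr h
    have hsm : σ • (Point.some x y h : (W₀⁄L).Point) = Point.some (σ x) (σ y) h' :=
      galois_smul_some σ h
    rw [hsm, nu_some, nu_some]
    have hσr : σ (r₁ + e₂ / 2) = r₁ + e₂ / 2 :=
      ecord_midpoint_fixed W₀ σ A hσ h2 hr he₂ he₃ he₂₃
    have hve2 : A.valuation (e₂ / 2) ≤ A.valuation e₂ := by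
      rw [map_div₀, h2, div_one]
    rw [← ecord_clip_center A.valuation he₂.le (x := σ x) (r := r₁) hve2,
      ← ecord_clip_center A.valuation he₂.le (x := x) (r := r₁) hve2]
    have e : σ x - (r₁ + e₂ / 2) = σ (x - (r₁ + e₂ / 2)) := by rw [map_sub, hσr]
    rw [e, valuation_apply_of_mem_decomposition hσ]

/-- **Node case.** For an integral odd-torsion point `P` reducing to the node and `σ` in the
inertia group, `σ • P - P` has nonsingular reduction (or lies in the kernel of reduction). -/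
theorem ecord_sub_of_node (A : ValuationSubring L) {σ : L ≃ₐ[ℚ] L}
    (hσ : σ ∈ A.inertiaSubgroupIn ℚ) (W₀ : WeierstrassCurve ℚ)
    (h₁ : (W₀.baseChange L).a₁ ∈ A) (h₂ : (W₀.baseChange L).a₂ ∈ A)
    (h₃ : (W₀.baseChange L).a₃ ∈ A) (h₄ : (W₀.baseChange L).a₄ ∈ A)
    (h₆ : (W₀.baseChange L).a₆ ∈ A)
    (h2 : A.valuation (2 : L) = 1) (n : ℕ) (hodd : Odd n)
    {r₁ e₂ e₃ : L} (hr : RootData (W₀.baseChange L) r₁ e₂ e₃) (hr₁ : r₁ ∈ A)
    (he₂ : A.valuation e₂ < 1) (he₂0 : e₂ ≠ 0) (he₃ : A.valuation e₃ = 1)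
    (he₂₃ : A.valuation (e₃ - e₂) = 1)
    {x y : L} (h : (W₀.baseChange L).toAffine.Nonsingular x y)
    (htors : n • Point.some x y h = 0) (hx : A.valuation (x - r₁) < 1) :
    nu A.valuation r₁ (A.valuation e₂)
      (σ • (Point.some x y h : (W₀⁄L).Point) - Point.some x y h) = 1 := by
  classical
  have h20 : (2 : L) ≠ 0 := key_val_two_ne_zero _ h2
  have h4 : A.valuation (4 : L) = 1 := key_val_four _ h2
  obtain ⟨hb₂, hb₄, hb₆, hb₈⟩ := kernel_b_mem A h₁ h₂ h₃ h₄ h₆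
  have hxA : x ∈ A := by
    have e : x = (x - r₁) + r₁ := by ring
    rw [e]
    exact add_mem ((A.valuation_le_one_iff _).1 hx.le) hr₁
  have h' : (W₀.baseChange L).toAffine.Nonsingular (σ x) (σ y) :=
    (WeierstrassCurve.Affine.baseChange_nonsingular W₀ (f := σ.toAlgHom)
      σ.toAlgHom.injective x y).mpr h
  have hsm : σ • (Point.some x y h : (W₀⁄L).Point) = Point.some (σ x) (σ y) h' :=
    galois_smul_some σ h
  rw [hsm]
  by_cases hne : Point.some (σ x) (σ y) h' = Point.some x y h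
  · rw [hne, sub_self]; rfl
  have hvb₂ : A.valuation (W₀.baseChange L).b₂ ≤ 1 := (A.valuation_le_one_iff _).2 hb₂
  have hvx : A.valuation x ≤ 1 := (A.valuation_le_one_iff _).2 hxA
  have hx'A : σ x ∈ A := (inertia_apply_mem_iff hσ x).2 hxA
  have hvx' : A.valuation (σ x) ≤ 1 := (A.valuation_le_one_iff _).2 hx'A
  -- the tropical step: the point lies in the open annulus
  obtain ⟨hlow, -⟩ := tropical_torsion A.valuation hr.hb₂ hr.hb₄ hr.hb₆ h2 he₃ he₂ he₂0 hodd h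
    htors hx
  -- the midpoint
  have hσr : σ (r₁ + e₂ / 2) = r₁ + e₂ / 2 := galois_midpoint W₀ σ A hσ h2 hr hr₁ he₃ he₂₃
  have hve2 : A.valuation (e₂ / 2) = A.valuation e₂ := by
    rw [map_div₀, h2, div_one]
  have hXe : x - (r₁ + e₂ / 2) = (x - r₁) - e₂ / 2 := by ring
  have hvX : A.valuation (x - (r₁ + e₂ / 2)) = A.valuation (x - r₁) := by
    rw [hXe, Valuation.map_sub_eq_of_lt_left _ (by rw [hve2]; exact hlow)]
  have hX1 : A.valuation (x - (r₁ + e₂ / 2)) < 1 := by rw [hvX]; exact hx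
  have hν0 : 0 < A.valuation (x - r₁) := lt_of_le_of_lt zero_le hlow
  have hX0 : x - (r₁ + e₂ / 2) ≠ 0 := by
    rw [← Valuation.pos_iff A.valuation, hvX]; exact hν0
  have hvX0 : A.valuation (x - (r₁ + e₂ / 2)) ≠ 0 := (Valuation.ne_zero_iff _).2 hX0
  -- `η`
  have hη_sq : eta (W₀.baseChange L) x y ^ 2 = 4 * (x - r₁) * (x - r₁ - e₂) * (x - r₁ - e₃) := by
    rw [eta_sq _ h.1, hr.cub_eq]
  have hs₂ : A.valuation (x - r₁ - e₂) = A.valuation (x - r₁) :=
    Valuation.map_sub_eq_of_lt_left _ hlow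
  have hs₃ : A.valuation (x - r₁ - e₃) = 1 := by
    rw [Valuation.map_sub_eq_of_lt_right _ (by rw [he₃]; exact hx), he₃]
  have hηv : A.valuation (eta (W₀.baseChange L) x y) = A.valuation (x - (r₁ + e₂ / 2)) := by
    have : A.valuation (eta (W₀.baseChange L) x y) ^ 2 = A.valuation (x - r₁) ^ 2 := by
      rw [← map_pow, hη_sq, map_mul, map_mul, map_mul, h4, hs₂, hs₃, one_mul, mul_one, sq]
    rw [hvX]
    exact (pow_left_inj₀ zero_le zero_le two_ne_zero).1 this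
  have ht : A.valuation (eta (W₀.baseChange L) x y / (x - (r₁ + e₂ / 2))) = 1 := by
    rw [map_div₀, hηv, div_self hvX0]
  have htA : eta (W₀.baseChange L) x y / (x - (r₁ + e₂ / 2)) ∈ A :=
    (A.valuation_le_one_iff _).1 ht.le
  have htt : A.valuation (eta (W₀.baseChange L) (σ x) (σ y) / (σ x - (r₁ + e₂ / 2)) -
      eta (W₀.baseChange L) x y / (x - (r₁ + e₂ / 2))) < 1 := by
    have e : eta (W₀.baseChange L) (σ x) (σ y) / (σ x - (r₁ + e₂ / 2)) =
        σ (eta (W₀.baseChange L) x y / (x - (r₁ + e₂ / 2))) := by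
      rw [map_div₀, map_sub, hσr, eta_galois]
    rw [e]
    exact (A.mem_nonunits_iff).1 (inertia_apply_sub_mem_nonunits hσ htA)
  have hXX : A.valuation (σ x - (r₁ + e₂ / 2)) = A.valuation (x - (r₁ + e₂ / 2)) := by
    have e : σ x - (r₁ + e₂ / 2) = σ (x - (r₁ + e₂ / 2)) := by rw [map_sub, hσr]
    rw [e, inertia_valuation_apply hσ]
  have hDle : A.valuation (σ x - x) ≤ A.valuation (x - (r₁ + e₂ / 2)) := by
    have e : σ x - x = (σ x - (r₁ + e₂ / 2)) - (x - (r₁ + e₂ / 2)) := by ring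
    rw [e]
    exact Valuation.map_sub_le _ hXX.le le_rfl
  have hr₁v : A.valuation r₁ ≤ 1 := (A.valuation_le_one_iff _).2 hr₁
  rcases hDle.lt_or_eq with hlt | heq
  · -- `P' - P` is in the kernel of reduction
    obtain ⟨x'', y'', h'', hQ, hgt⟩ := key_node _ hvb₂ h2 h h' (r₁ + e₂ / 2) hvx hvx' hX0 hlt ht
      htt hne
    rw [hQ]
    refine (ecord_nu_some_eq_one_iff A.valuation he₂ h'').2 ?_
    rw [Valuation.map_sub_eq_of_lt_left _ (lt_of_le_of_lt hr₁v hgt)]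
    exact hgt.le
  · -- the unit case
    have hC : A.valuation ((eta (W₀.baseChange L) x y / (x - (r₁ + e₂ / 2))) ^ 2 -
        ((W₀.baseChange L).b₂ + 12 * (r₁ + e₂ / 2))) < 1 := by
      have hsq0 : 0 < A.valuation (x - (r₁ + e₂ / 2)) ^ 2 :=
        pow_pos (zero_lt_iff.2 hvX0) 2
      have key : ((eta (W₀.baseChange L) x y / (x - (r₁ + e₂ / 2))) ^ 2 -
          ((W₀.baseChange L).b₂ + 12 * (r₁ + e₂ / 2))) * (x - (r₁ + e₂ / 2)) ^ 2 =
          4 * (x - (r₁ + e₂ / 2)) ^ 3 - e₂ ^ 2 * (x - r₁ - e₃) := by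
        rw [div_pow, sub_mul, div_mul_cancel₀ _ (pow_ne_zero 2 hX0), hη_sq, hr.hb₂]
        field_simp
        ring
      have hA1 : A.valuation (4 * (x - (r₁ + e₂ / 2)) ^ 3) <
          A.valuation (x - (r₁ + e₂ / 2)) ^ 2 := by
        rw [map_mul, h4, one_mul, map_pow, pow_succ]
        calc A.valuation (x - (r₁ + e₂ / 2)) ^ 2 * A.valuation (x - (r₁ + e₂ / 2))
            < A.valuation (x - (r₁ + e₂ / 2)) ^ 2 * 1 := by
              exact mul_lt_mul_of_pos_left hX1 hsq0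
          _ = A.valuation (x - (r₁ + e₂ / 2)) ^ 2 := mul_one _
      have hA2 : A.valuation (e₂ ^ 2 * (x - r₁ - e₃)) <
          A.valuation (x - (r₁ + e₂ / 2)) ^ 2 := by
        rw [map_mul, hs₃, mul_one, map_pow, hvX]
        exact pow_lt_pow_left₀ hlow zero_le two_ne_zero
      have hlt2 : A.valuation (((eta (W₀.baseChange L) x y / (x - (r₁ + e₂ / 2))) ^ 2 -
          ((W₀.baseChange L).b₂ + 12 * (r₁ + e₂ / 2))) * (x - (r₁ + e₂ / 2)) ^ 2) <
          A.valuation (x - (r₁ + e₂ / 2)) ^ 2 := by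
        rw [key]
        exact Valuation.map_sub_lt _ hA1 hA2
      rw [map_mul, map_pow] at hlt2
      by_contra hge
      rw [not_lt] at hge
      have : A.valuation (x - (r₁ + e₂ / 2)) ^ 2 ≤
          A.valuation ((eta (W₀.baseChange L) x y / (x - (r₁ + e₂ / 2))) ^ 2 -
            ((W₀.baseChange L).b₂ + 12 * (r₁ + e₂ / 2))) *
            A.valuation (x - (r₁ + e₂ / 2)) ^ 2 := by
        calc A.valuation (x - (r₁ + e₂ / 2)) ^ 2
            = 1 * A.valuation (x - (r₁ + e₂ / 2)) ^ 2 := (one_mul _).symm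
          _ ≤ _ := by gcongr
      exact absurd hlt2 (not_lt.2 this)
    obtain ⟨x'', y'', h'', hQ, hu⟩ := key_node_unit A.valuation h2 h h' (r₁ + e₂ / 2) hX1 hX0
      hXX heq ht htt hC
    rw [hQ]
    refine (ecord_nu_some_eq_one_iff A.valuation he₂ h'').2 ?_
    have e : x'' - r₁ = (x'' - (r₁ + e₂ / 2)) + e₂ / 2 := by ring
    rw [e, Valuation.map_add_eq_of_lt_left _ (by rw [hu, hve2]; exact he₂), hu]

/-- **Inertia moves odd torsion inside `E⁰`** (no condition on the order relative to the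
residue characteristic). -/
theorem ecord_inertia_move (A : ValuationSubring L) {σ : L ≃ₐ[ℚ] L}
    (hσ : σ ∈ A.inertiaSubgroupIn ℚ) (W₀ : WeierstrassCurve ℚ)
    (h₁ : (W₀.baseChange L).a₁ ∈ A) (h₂ : (W₀.baseChange L).a₂ ∈ A)
    (h₃ : (W₀.baseChange L).a₃ ∈ A) (h₄ : (W₀.baseChange L).a₄ ∈ A)
    (h₆ : (W₀.baseChange L).a₆ ∈ A)
    (h2 : A.valuation (2 : L) = 1) (n : ℕ) (hodd : Odd n)
    {r₁ e₂ e₃ : L} (hr : RootData (W₀.baseChange L) r₁ e₂ e₃) (hr₁ : r₁ ∈ A)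
    (he₂ : A.valuation e₂ < 1) (he₂0 : e₂ ≠ 0) (he₃ : A.valuation e₃ = 1)
    (he₂₃ : A.valuation (e₃ - e₂) = 1)
    (P : (W₀⁄L).Point) (hP : n • P = 0) :
    nu A.valuation r₁ (A.valuation e₂) (σ • P - P) = 1 := by
  have hσD : σ ∈ A.decompositionSubgroup ℚ := mem_decomposition_of_mem_inertiaIn hσ
  have hνσ := ecord_nu_smul A hσD W₀ h2 hr he₂ he₃ he₂₃ P
  rcases (nu_le_one A.valuation r₁ (A.valuation e₂) P).lt_or_eq with hlt | heq
  · obtain ⟨x, y, h, rfl, hx⟩ := exists_of_nu_lt_one A.valuation r₁ (A.valuation e₂) hlt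
    exact ecord_sub_of_node A hσ W₀ h₁ h₂ h₃ h₄ h₆ h2 n hodd hr hr₁ he₂ he₂0 he₃ he₂₃ h hP hx
  · have h1 : nu A.valuation r₁ (A.valuation e₂) (σ • P) = 1 := by rw [hνσ, heq]
    have h3 : nu A.valuation r₁ (A.valuation e₂) (-P) = 1 := by rw [nu_neg, heq]
    rw [sub_eq_add_neg]
    exact ecord_nu_add A.valuation hr.hb₂ hr.hb₄ hr.hb₆ h2 he₃ he₂ he₂0 h1 h3

/-- **The decomposition group acts by `±1` modulo `E⁰`.** -/
theorem ecord_decomp_sign (A : ValuationSubring L) {σ : L ≃ₐ[ℚ] L}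
    (hσ : σ ∈ A.decompositionSubgroup ℚ) (W₀ : WeierstrassCurve ℚ)
    (h2 : A.valuation (2 : L) = 1)
    {r₁ e₂ e₃ : L} (hr : RootData (W₀.baseChange L) r₁ e₂ e₃)
    (he₂ : A.valuation e₂ < 1) (he₂0 : e₂ ≠ 0) (he₃ : A.valuation e₃ = 1)
    (he₂₃ : A.valuation (e₃ - e₂) = 1) (P : (W₀⁄L).Point) :
    nu A.valuation r₁ (A.valuation e₂) (σ • P - P) = 1 ∨
      nu A.valuation r₁ (A.valuation e₂) (σ • P + P) = 1 := by
  have hνσ := ecord_nu_smul A hσ W₀ h2 hr he₂ he₃ he₂₃ P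
  rcases (nu_le_one A.valuation r₁ (A.valuation e₂) P).lt_or_eq with hlt | heq
  · exact ecord_nu_pm A.valuation hr.hb₂ hr.hb₄ hr.hb₆ h2 he₃ he₂ he₂0 hνσ hlt
  · right
    have h1 : nu A.valuation r₁ (A.valuation e₂) (σ • P) = 1 := by rw [hνσ, heq]
    exact ecord_nu_add A.valuation hr.hb₂ hr.hb₄ hr.hb₆ h2 he₃ he₂ he₂0 h1 heq

end Move

end Fermat.Agent.EC
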