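/-
EC / Ord (helper77): **the Tate representation of a semistable curve is strictly ordinary at a
multiplicative prime `p ∈ {3, 5}`**.

`W : WeierstrassCurve ℤ`, `Δ ≠ 0`, `p ∈ {3, 5}`, `p ∣ Δ`, `p ∤ c₄`:
  `tateRepInt_isStrictOrdinaryAt : (tateRepInt W hΔ p).IsStrictOrdinaryAt p`.

The line at a place `A ∣ p` is `L = {v : every level of v has nonsingular reduction at A}`
(`ecordLine` for `E⁰ = ecordE0`).  No Tate curve, no formal group:
* `L` is stable under the decomposition group and contains `(σ - 1) V` for `σ` in the inertia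
  group (`ecord_nu_smul`, `ecord_inertia_move`: tropical step of S05 + key lemmas at the node);
* the decomposition group acts on `V / L` through `z = ± 1` (`ecord_decomp_sign`:
  quasi-parallelogram law), and `det = χ` gives `x = χ z`;
* `L ≠ 0` because `χ` is ramified at `A` (`ecord_exists_inertia_sq`), `L ≠ V` because some
  `p`-torsion point reduces to the node (`ecord_exists_near_three/five`).
-/
import Mathlib
import Fermat.Prelude.Def_GaloisRep_StrictOrdinary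
import Fermat.Agent.EC.TateDet
import Fermat.Agent.RED.Unip
import Fermat.Agent.EC.Ord.Node
import Fermat.Agent.EC.Ord.Near
import Fermat.Agent.EC.Ord.Line
import Fermat.Agent.EC.Ord.CycRam

set_option autoImplicit false
set_option linter.unusedSectionVars false
set_option linter.unusedVariables false

namespace Fermat.Agent.EC

open WeierstrassCurve WeierstrassCurve.Affine Fermat.Agent.S05 Fermat.Agent.RED

/-- `ℚ̄` -/
local notation "Qbar" => AlgebraicClosure ℚ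
/-- `G_ℚ` -/
local notation "GQ" => (AlgebraicClosure ℚ ≃ₐ[ℚ] AlgebraicClosure ℚ)

/-- **The strictly ordinary clause at one place, from a subgroup `E₀` of points.** -/
theorem ecord_clause (W : WeierstrassCurve ℚ) (hΔ : W.Δ ≠ 0) (p : ℕ) [hp : Fact p.Prime]
    (hp2 : p ≠ 2) (hdet : (tateRep W hΔ p).DetIsCyclotomic p)
    (A : ValuationSubring Qbar) (hA : A.LiesOverPrime p)
    (E₀ : AddSubgroup (W⁄Qbar).Point)
    (hstab : ∀ σ ∈ A.decompositionSubgroup ℚ, ∀ P ∈ E₀, σ • P ∈ E₀)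
    (hmove : ∀ σ ∈ A.inertiaSubgroupIn ℚ, ∀ (n : ℕ) (P : (W⁄Qbar).Point),
      p ^ n • P = 0 → σ • P - P ∈ E₀)
    (hsign : ∀ σ ∈ A.decompositionSubgroup ℚ, ∀ P : (W⁄Qbar).Point,
      σ • P - P ∈ E₀ ∨ σ • P + P ∈ E₀)
    (hN : ∃ P : (W⁄Qbar).Point, p • P = 0 ∧ P ∉ E₀) :
    ∃ L : Submodule ℤ_[p] (tateRep W hΔ p).V,
      (∃ b : Module.Basis (Fin 2) ℤ_[p] (tateRep W hΔ p).V, L = ℤ_[p] ∙ b 0) ∧
      (∀ σ ∈ A.decompositionSubgroup ℚ, ∀ v ∈ L, (tateRep W hΔ p).ρ σ v ∈ L) ∧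
      (∀ σ ∈ A.inertiaSubgroupIn ℚ, ∀ v : (tateRep W hΔ p).V,
        (tateRep W hΔ p).ρ σ v - v ∈ L) ∧
      (∀ σ ∈ A.decompositionSubgroup ℚ, ∃ x z : ℤ_[p],
        (∀ w ∈ L, (tateRep W hΔ p).ρ σ w = x • w) ∧
        (∀ v : (tateRep W hΔ p).V, (tateRep W hΔ p).ρ σ v - z • v ∈ L) ∧
        ∀ (n a : ℕ), (∀ μ : Qbar, μ ^ p ^ n = 1 → σ μ = μ ^ a) →
          x - (a : ℤ_[p]) * z ∈ Ideal.span {((p ^ n : ℕ) : ℤ_[p])}) := by
  have hρ : ∀ σ : GQ, (tateRep W hΔ p).ρ σ = (tateSys W p hΔ).tateEnd (tateGal W σ) :=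
    fun σ => rfl
  have hpT : (p : ℤ_[p]) ∈ IsLocalRing.maximalIdeal ℤ_[p] := hdet.1
  -- the line is not `0`
  have hne : ecordLine (tateSys W p hΔ) E₀ ≠ ⊥ := by
    intro hbot
    obtain ⟨σ, hσI, hσ2⟩ := ecord_exists_inertia_sq p hp2 A hA
    have hT : (tateRep W hΔ p).ρ σ = 1 := by
      have key : ∀ v : Fin 2 → ℤ_[p], (tateSys W p hΔ).tateEnd (tateGal W σ) v = v := by
        intro v
        have h1 : (tateSys W p hΔ).tateEnd (tateGal W σ) v - v ∈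
            (⊥ : Submodule ℤ_[p] (Fin 2 → ℤ_[p])) := by
          rw [← hbot]
          exact ecordLine_move (tateSys W p hΔ) E₀ (tateGal W σ)
            (fun n P hP => hmove σ hσI n P hP) v
        exact sub_eq_zero.1 ((Submodule.mem_bot _).1 h1)
      exact LinearMap.ext key
    have h2 := hdet.2 1 σ 2 (fun μ hμ => hσ2 μ (by simpa using hμ))
    rw [hT, map_one, pow_one] at h2
    have h3 : ((1 : ℤ_[p]) - ((2 : ℕ) : ℤ_[p])) ∈ IsLocalRing.maximalIdeal ℤ_[p] :=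
      (Ideal.span_singleton_le_iff_mem _).2 hpT h2
    have h4 : (1 : ℤ_[p]) ∈ IsLocalRing.maximalIdeal ℤ_[p] := by
      have e : (1 : ℤ_[p]) = -((1 : ℤ_[p]) - ((2 : ℕ) : ℤ_[p])) := by push_cast; ring
      rw [e]
      exact neg_mem h3
    exact (Ideal.ne_top_iff_one _).1 (IsLocalRing.maximalIdeal.isMaximal ℤ_[p]).ne_top h4
  obtain ⟨b, hb⟩ := ecordLine_eq_span (tateSys W p hΔ) E₀ hN hne
  refine ⟨ecordLine (tateSys W p hΔ) E₀, ⟨b, hb⟩, ?_, ?_, ?_⟩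
  · intro σ hσ v hv
    exact ecordLine_stable (tateSys W p hΔ) E₀ (tateGal W σ) (fun P hP => hstab σ hσ P hP) v hv
  · intro σ hσ v
    exact ecordLine_move (tateSys W p hΔ) E₀ (tateGal W σ)
      (fun n P hP => hmove σ hσ n P hP) v
  · intro σ hσ
    obtain ⟨x, z, h1, h2, hzz, hdt⟩ := ecordLine_sign (tateSys W p hΔ) E₀ b hb hN (tateGal W σ)
      (fun P hP => hstab σ hσ P hP) (fun P => hsign σ hσ P)
    refine ⟨x, z, h1, h2, fun n a hμ => ?_⟩
    have h3 : LinearMap.det ((tateSys W p hΔ).tateEnd (tateGal W σ)) - (a : ℤ_[p]) ∈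
        Ideal.span {((p ^ n : ℕ) : ℤ_[p])} := hdet.2 n σ a hμ
    rw [hdt] at h3
    have e : x - (a : ℤ_[p]) * z = z * (x * z - (a : ℤ_[p])) := by
      linear_combination (-x) * hzz
    rw [e]
    exact Ideal.mul_mem_left _ _ h3

section Int

variable (W : WeierstrassCurve ℤ) (hΔ : W.Δ ≠ 0)

/-- The strictly ordinary clause at a place over a multiplicative odd prime `p`, given a
`p`-torsion point reducing to the node for every root datum at the place. -/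
theorem ecord_clause_of_mult (p : ℕ) [hp : Fact p.Prime] (hp2 : p ≠ 2)
    (hbad : (p : ℤ) ∣ W.Δ) (hc₄ : ¬ (p : ℤ) ∣ W.c₄)
    (A : ValuationSubring Qbar) (hA : A.LiesOverPrime p)
    (hnear : ∀ r₁ e₂ e₃ : Qbar,
      RootData ((W.map (Int.castRingHom ℚ)).baseChange Qbar) r₁ e₂ e₃ →
      A.valuation e₂ < 1 → A.valuation e₃ = 1 →
      ∃ P : ((W.map (Int.castRingHom ℚ))⁄Qbar).Point, p • P = 0 ∧
        nu A.valuation r₁ (A.valuation e₂) P < 1) :
    ∃ L : Submodule ℤ_[p] (tateRepInt W hΔ p).V,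
      (∃ b : Module.Basis (Fin 2) ℤ_[p] (tateRepInt W hΔ p).V, L = ℤ_[p] ∙ b 0) ∧
      (∀ σ ∈ A.decompositionSubgroup ℚ, ∀ v ∈ L, (tateRepInt W hΔ p).ρ σ v ∈ L) ∧
      (∀ σ ∈ A.inertiaSubgroupIn ℚ, ∀ v : (tateRepInt W hΔ p).V,
        (tateRepInt W hΔ p).ρ σ v - v ∈ L) ∧
      (∀ σ ∈ A.decompositionSubgroup ℚ, ∃ x z : ℤ_[p],
        (∀ w ∈ L, (tateRepInt W hΔ p).ρ σ w = x • w) ∧
        (∀ v : (tateRepInt W hΔ p).V, (tateRepInt W hΔ p).ρ σ v - z • v ∈ L) ∧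
        ∀ (n a : ℕ), (∀ μ : Qbar, μ ^ p ^ n = 1 → σ μ = μ ^ a) →
          x - (a : ℤ_[p]) * z ∈ Ideal.span {((p ^ n : ℕ) : ℤ_[p])}) := by
  classical
  have hq : p.Prime := hp.out
  have : Algebra.IsAlgebraic ℚ Qbar := isAlgebraic_rat_qbar
  have h2 : A.valuation (2 : Qbar) = 1 := valuation_two_eq_one A hq hA hp2
  have h₁ : ((W.map (Int.castRingHom ℚ)).baseChange Qbar).a₁ ∈ A := by
    rw [unip_a₁]; exact intCast_mem A _
  have h₂ : ((W.map (Int.castRingHom ℚ)).baseChange Qbar).a₂ ∈ A := by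
    rw [unip_a₂]; exact intCast_mem A _
  have h₃ : ((W.map (Int.castRingHom ℚ)).baseChange Qbar).a₃ ∈ A := by
    rw [unip_a₃]; exact intCast_mem A _
  have h₄ : ((W.map (Int.castRingHom ℚ)).baseChange Qbar).a₄ ∈ A := by
    rw [unip_a₄]; exact intCast_mem A _
  have h₆ : ((W.map (Int.castRingHom ℚ)).baseChange Qbar).a₆ ∈ A := by
    rw [unip_a₆]; exact intCast_mem A _
  obtain ⟨hb₂, hb₄, hb₆, -⟩ := kernel_b_mem A h₁ h₂ h₃ h₄ h₆
  have hΔ0' : ((W.map (Int.castRingHom ℚ)).baseChange Qbar).Δ ≠ 0 := by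
    rw [unip_Δ]; exact_mod_cast hΔ
  have hΔv : A.valuation ((W.map (Int.castRingHom ℚ)).baseChange Qbar).Δ < 1 := by
    rw [unip_Δ]; exact (valuation_intCast_lt_one_iff A hq hA _).2 hbad
  have hc₄v : A.valuation ((W.map (Int.castRingHom ℚ)).baseChange Qbar).c₄ = 1 := by
    rw [unip_c₄]; exact (valuation_intCast_eq_one_iff A hq hA _).2 hc₄
  obtain ⟨r₁, e₂, e₃, hr, hr₁, he₂, he₂0, he₃, he₂₃⟩ :=
    exists_rootData A.valuation ((W.map (Int.castRingHom ℚ)).baseChange Qbar) h2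
      ((A.valuation_le_one_iff _).2 hb₂) ((A.valuation_le_one_iff _).2 hb₄)
      ((A.valuation_le_one_iff _).2 hb₆) hΔ0' hΔv hc₄v
  have hr₁A : r₁ ∈ A := (A.valuation_le_one_iff _).1 hr₁
  have hodd : ∀ n : ℕ, Odd (p ^ n) := fun n => (hq.odd_of_ne_two hp2).pow
  obtain ⟨P₀, hP₀, hP₀ν⟩ := hnear r₁ e₂ e₃ hr he₂ he₃
  refine ecord_clause (W.map (Int.castRingHom ℚ)) (tate_map_Δ_ne_zero W hΔ) p hp2
    (tateRepInt_detIsCyclotomic W hΔ p) A hA
    (ecordE0 A.valuation hr.hb₂ hr.hb₄ hr.hb₆ h2 he₃ he₂ he₂0) ?_ ?_ ?_ ?_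
  · intro σ hσ P hP
    rw [mem_ecordE0] at hP ⊢
    rw [ecord_nu_smul A hσ _ h2 hr he₂ he₃ he₂₃ P]
    exact hP
  · intro σ hσ n P hP
    rw [mem_ecordE0]
    exact ecord_inertia_move A hσ _ h₁ h₂ h₃ h₄ h₆ h2 (p ^ n) (hodd n) hr hr₁A he₂ he₂0 he₃
      he₂₃ P hP
  · intro σ hσ P
    simp only [mem_ecordE0]
    exact ecord_decomp_sign A hσ _ h2 hr he₂ he₂0 he₃ he₂₃ P
  · refine ⟨P₀, hP₀, fun hmem => ?_⟩
    rw [mem_ecordE0] at hmem
    exact absurd hmem (ne_of_lt hP₀ν)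

/-- **The Tate representation is strictly ordinary at a multiplicative prime `p ∈ {3, 5}`.** -/
theorem tateRepInt_isStrictOrdinaryAt (p : ℕ) [hp : Fact p.Prime] (hp35 : p = 3 ∨ p = 5)
    (hbad : (p : ℤ) ∣ W.Δ) (hc₄ : ¬ (p : ℤ) ∣ W.c₄) :
    (tateRepInt W hΔ p).IsStrictOrdinaryAt p := by
  classical
  have hq : p.Prime := hp.out
  have hp2 : p ≠ 2 := by rcases hp35 with rfl | rfl <;> decide
  refine ⟨(tateRepInt_detIsCyclotomic W hΔ p).1, fun A hA => ?_⟩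
  have h2 : A.valuation (2 : Qbar) = 1 := valuation_two_eq_one A hq hA hp2
  have hΔ0' : ((W.map (Int.castRingHom ℚ)).baseChange Qbar).Δ ≠ 0 := by
    rw [unip_Δ]; exact_mod_cast hΔ
  have hpv : A.valuation ((p : ℕ) : Qbar) < 1 := (A.mem_nonunits_iff).1 hA
  refine ecord_clause_of_mult W hΔ p hp2 hbad hc₄ A hA (fun r₁ e₂ e₃ hr he₂ he₃ => ?_)
  rcases hp35 with rfl | rfl
  · exact ecord_exists_near_three A h2 (by simpa using hpv) hΔ0' hr he₂ he₃
  · exact ecord_exists_near_five A h2 (by simpa using hpv) hΔ0' hr he₂ he₃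

end Int

end Fermat.Agent.EC
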